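import Fermat.Agent.FurstenbergLyapunov.Gap
import Fermat.Agent.Kingman.Cocycle
import Mathlib.Probability.ProductMeasure
import Mathlib.Data.Nat.Choose.Central
import Mathlib.Analysis.SpecificLimits.Normed

/-!
# The exponential decay of the inverse norm of a random product

The gap bounds the powers of the lazy average `(f + avg μ f) / 2`, whose `2 k`-th power dominates a
multiple `(2 k).choose k / 4 ^ k` of the `k`-th power of the average.  Applied to the indicator of
the unit ball, this bounds the expectation of `(‖g‖ ^ d)⁻¹` for a product `g` of `k` factors.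
-/

set_option autoImplicit false

noncomputable section

namespace FA.FurstenbergLyapunov

open MeasureTheory Metric Filter Topology Module Set ENNReal
open FA.Kingman (cocycleProd)

/-- The shift of sequences. -/
def shift {α : Type*} (x : ℕ → α) : ℕ → α := fun n => x (n + 1)

theorem measurable_shift {α : Type*} [MeasurableSpace α] :
    Measurable (shift : (ℕ → α) → ℕ → α) :=
  measurable_pi_lambda _ fun n => measurable_pi_apply (n + 1)

/-- The first term and the others are independent. -/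
theorem map_split_infinitePi {α : Type*} [MeasurableSpace α] (μ : Measure α)
    [IsProbabilityMeasure μ] :
    (Measure.infinitePi fun _ : ℕ => μ).map (fun x => (x 0, shift x)) =
      μ.prod (Measure.infinitePi fun _ : ℕ => μ) := by
  classical
  set π := Measure.infinitePi fun _ : ℕ => μ with hπ
  set cons : α × (ℕ → α) → ℕ → α := fun p n => Nat.casesOn n p.1 p.2 with hcons
  have hmc : Measurable cons := measurable_pi_lambda _ fun n => by
    cases n with
    | zero => exact measurable_fst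
    | succ n => exact (measurable_pi_apply n).comp measurable_snd
  have h : (μ.prod π).map cons = π := by
    refine Measure.eq_infinitePi _ fun s t ht => ?_
    rw [Measure.map_apply hmc (.pi s.countable_toSet fun i _ => ht i)]
    set s' : Finset ℕ := s.preimage (· + 1) (add_left_injective 1).injOn with hs'
    have hpre : cons ⁻¹' (s : Set ℕ).pi t =
        (if 0 ∈ s then t 0 else univ) ×ˢ (s' : Set ℕ).pi (fun i => t (i + 1)) := by
      ext p
      simp only [mem_preimage, Set.mem_pi, SetLike.mem_coe, mem_prod, hs', Finset.mem_preimage]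
      refine ⟨fun h => ⟨?_, fun i hi => h (i + 1) hi⟩, fun h i hi => ?_⟩
      · split
        · exact h 0 ‹_›
        · trivial
      · cases i with
        | zero =>
          show p.1 ∈ t 0
          simpa [hi] using h.1
        | succ i => exact h.2 i hi
    rw [hpre, Measure.prod_prod, Measure.infinitePi_pi _ fun i _ => ht (i + 1)]
    by_cases h0 : 0 ∈ s
    · rw [if_pos h0, ← Finset.mul_prod_erase s _ h0]
      congr 1
      refine Finset.prod_bij' (fun i _ => i + 1) (fun i _ => i - 1) ?_ ?_ ?_ ?_ ?_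
      · intro i hi
        simp only [hs', Finset.mem_preimage] at hi
        simp [hi]
      · intro i hi
        obtain ⟨hi0, hi⟩ := Finset.mem_erase.1 hi
        simp [hs', Nat.sub_add_cancel (Nat.one_le_iff_ne_zero.2 hi0), hi]
      · simp
      · intro i hi
        exact Nat.sub_add_cancel (Nat.one_le_iff_ne_zero.2 (Finset.mem_erase.1 hi).1)
      · simp
    · rw [if_neg h0, measure_univ, one_mul]
      refine Finset.prod_bij' (fun i _ => i + 1) (fun i _ => i - 1) ?_ ?_ ?_ ?_ ?_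
      · intro i hi
        simpa [hs'] using hi
      · intro i hi
        have hi0 : i ≠ 0 := fun e => h0 (e ▸ hi)
        simp [hs', Nat.sub_add_cancel (Nat.one_le_iff_ne_zero.2 hi0), hi]
      · simp
      · intro i hi
        exact Nat.sub_add_cancel (Nat.one_le_iff_ne_zero.2 fun e => h0 (e ▸ hi))
      · simp
  conv_lhs => rw [← h]
  rw [Measure.map_map ((measurable_pi_apply 0).prodMk measurable_shift) hmc,
    show (fun x : ℕ → α => (x 0, shift x)) ∘ cons = id from rfl, Measure.map_id]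

variable {E : Type*} [NormedAddCommGroup E] [InnerProductSpace ℝ E] [FiniteDimensional ℝ E]
  [MeasurableSpace E] [BorelSpace E]

/-- The product `x (n - 1) * ... * x 0` of the first terms of a sequence of operators. -/
def randProd (n : ℕ) (x : ℕ → E →L[ℝ] E) : E →L[ℝ] E := cocycleProd shift (fun y => y 0) n x

omit [FiniteDimensional ℝ E] [MeasurableSpace E] [BorelSpace E] in
theorem randProd_succ (n : ℕ) (x : ℕ → E →L[ℝ] E) :
    randProd (n + 1) x = randProd n (shift x) * x 0 := rfl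

omit [FiniteDimensional ℝ E] [MeasurableSpace E] [BorelSpace E] in
theorem randProd_succ' (n : ℕ) (x : ℕ → E →L[ℝ] E) :
    randProd (n + 1) x = x n * randProd n x := by
  induction n generalizing x with
  | zero => simp [randProd, cocycleProd]
  | succ n ih => rw [randProd_succ, ih (shift x), mul_assoc, ← randProd_succ]; rfl

omit [MeasurableSpace E] [BorelSpace E] in
theorem measurable_randProd (n : ℕ) : Measurable (randProd (E := E) n) := by
  induction n with
  | zero => exact measurable_const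
  | succ n ih =>
    exact (continuous_mul.measurable.comp
      ((ih.comp measurable_shift).prodMk (measurable_pi_apply 0)) :)

omit [FiniteDimensional ℝ E] [MeasurableSpace E] [BorelSpace E] in
theorem randProd_mem_unitDet {x : ℕ → E →L[ℝ] E} (hx : ∀ i, x i ∈ unitDet E) (n : ℕ) :
    randProd n x ∈ unitDet E := by
  induction n generalizing x with
  | zero => exact one_mem_unitDet
  | succ n ih => exact mul_mem_unitDet (ih fun i => hx (i + 1)) (hx 0)

variable (μ : Measure (E →L[ℝ] E)) [IsProbabilityMeasure μ]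

omit [FiniteDimensional ℝ E] [MeasurableSpace E] [BorelSpace E] in
theorem ae_all_unitDet (hμ : ∀ᵐ A ∂μ, A ∈ unitDet E) :
    ∀ᵐ x ∂(Measure.infinitePi fun _ : ℕ => μ), ∀ i, x i ∈ unitDet E := by
  refine ae_all_iff.2 fun i => ?_
  have h := measurePreserving_eval_infinitePi (fun _ : ℕ => μ) i
  exact h.quasiMeasurePreserving.ae hμ

theorem iterate_avg (n : ℕ) {f : E → ℝ≥0∞} (hf : Measurable f) (x : E) :
    (avg μ)^[n] f x = ∫⁻ ω, f (randProd n ω x) ∂(Measure.infinitePi fun _ : ℕ => μ) := by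
  induction n generalizing x with
  | zero => simp [randProd, cocycleProd]
  | succ n ih =>
    rw [Function.iterate_succ_apply']
    simp only [avg, ih, randProd_succ, mul_apply_eq_comp]
    set F : (E →L[ℝ] E) × (ℕ → E →L[ℝ] E) → ℝ≥0∞ := fun p => f (randProd n p.2 (p.1 x))
    have hF : Measurable F := hf.comp (measurable_eval.comp
      (((measurable_randProd n).comp measurable_snd).prodMk
        (measurable_eval.comp (measurable_fst.prodMk measurable_const))))
    calc ∫⁻ A, ∫⁻ ω, F (A, ω) ∂(Measure.infinitePi fun _ : ℕ => μ) ∂μ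
        = ∫⁻ p, F p ∂(μ.prod (Measure.infinitePi fun _ : ℕ => μ)) :=
          (lintegral_prod F hF.aemeasurable).symm
      _ = _ := by
          rw [← map_split_infinitePi μ,
            lintegral_map hF ((measurable_pi_apply 0).prodMk measurable_shift)]

/-- The lazy average. -/
def lazyAvg (f : E → ℝ≥0∞) (x : E) : ℝ≥0∞ := 2⁻¹ * (f x + avg μ f x)

theorem measurable_lazyAvg {f : E → ℝ≥0∞} (hf : Measurable f) : Measurable (lazyAvg μ f) :=
  (hf.add (measurable_avg μ hf)).const_mul _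

omit [FiniteDimensional ℝ E] [BorelSpace E] [MeasurableSpace E] [IsProbabilityMeasure μ] in
theorem choose_mul_le_lazyAvg (n j : ℕ) (f : E → ℝ≥0∞) (x : E) :
    (n.choose j : ℝ≥0∞) * 2⁻¹ ^ n * (avg μ)^[j] f x ≤ (lazyAvg μ)^[n] f x := by
  induction n generalizing j x with
  | zero => cases j <;> simp
  | succ n ih =>
    rw [Function.iterate_succ_apply']
    show _ ≤ 2⁻¹ * (_ + avg μ ((lazyAvg μ)^[n] f) x)
    cases j with
    | zero =>
      calc ((n + 1).choose 0 : ℝ≥0∞) * 2⁻¹ ^ (n + 1) * (avg μ)^[0] f x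
          = 2⁻¹ * ((n.choose 0 : ℝ≥0∞) * 2⁻¹ ^ n * (avg μ)^[0] f x) := by
            simp only [Nat.choose_zero_right, pow_succ]; ring
        _ ≤ _ := mul_le_mul' le_rfl ((ih 0 x).trans le_self_add)
    | succ j =>
      have hc : (n.choose j : ℝ≥0∞) * 2⁻¹ ^ n ≠ ⊤ :=
        mul_ne_top (natCast_ne_top _) (pow_ne_top (inv_ne_top.2 two_ne_zero))
      have h2 : (n.choose j : ℝ≥0∞) * 2⁻¹ ^ n * (avg μ)^[j + 1] f x ≤
          avg μ ((lazyAvg μ)^[n] f) x := by
        rw [Function.iterate_succ_apply', avg, ← lintegral_const_mul' _ _ hc]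
        exact lintegral_mono fun A => ih j (A x)
      calc ((n + 1).choose (j + 1) : ℝ≥0∞) * 2⁻¹ ^ (n + 1) * (avg μ)^[j + 1] f x
          = 2⁻¹ * ((n.choose (j + 1) : ℝ≥0∞) * 2⁻¹ ^ n * (avg μ)^[j + 1] f x +
              (n.choose j : ℝ≥0∞) * 2⁻¹ ^ n * (avg μ)^[j + 1] f x) := by
            rw [Nat.choose_succ_succ, Nat.cast_add, pow_succ]; ring
        _ ≤ _ := mul_le_mul' le_rfl (add_le_add (ih (j + 1) x) h2)

variable {μ} in
theorem lintegral_lazyAvg_sq_le (hμ : ∀ᵐ A ∂μ, A ∈ unitDet E) {s : ℝ≥0∞}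
    (hs : ∀ f : E → ℝ≥0∞, Measurable f → ∫⁻ x, f x * avg μ f x ≤ s * ∫⁻ x, f x ^ 2)
    {f : E → ℝ≥0∞} (hf : Measurable f) :
    ∫⁻ x, lazyAvg μ f x ^ 2 ≤ 2⁻¹ * (1 + s) * ∫⁻ x, f x ^ 2 := by
  have h2 : ∫⁻ x, avg μ f x ^ 2 ≤ ∫⁻ x, f x ^ 2 :=
    (lintegral_mono fun x => avg_sq_le μ hf x).trans (lintegral_avg μ hμ (hf.pow_const 2)).le
  have hm := measurable_avg μ hf
  calc ∫⁻ x, lazyAvg μ f x ^ 2
      = ∫⁻ x, 2⁻¹ * (2⁻¹ * (f x ^ 2 + avg μ f x ^ 2 + 2 * (f x * avg μ f x))) :=
        lintegral_congr fun x => by rw [lazyAvg]; ring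
    _ = 2⁻¹ * (2⁻¹ * ((∫⁻ x, f x ^ 2) + (∫⁻ x, avg μ f x ^ 2) +
          2 * ∫⁻ x, f x * avg μ f x)) := by
        rw [lintegral_const_mul' _ _ (inv_ne_top.2 two_ne_zero),
          lintegral_const_mul' _ _ (inv_ne_top.2 two_ne_zero),
          lintegral_add_left (f := fun x => f x ^ 2 + avg μ f x ^ 2)
            ((hf.pow_const 2).add (hm.pow_const 2)),
          lintegral_add_left (hf.pow_const 2), lintegral_const_mul' _ _ ofNat_ne_top]
    _ ≤ 2⁻¹ * (2⁻¹ * ((∫⁻ x, f x ^ 2) + (∫⁻ x, f x ^ 2) + 2 * (s * ∫⁻ x, f x ^ 2))) := by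
        gcongr
        exact hs f hf
    _ = 2⁻¹ * (2⁻¹ * (2 * ((1 + s) * ∫⁻ x, f x ^ 2))) := by ring
    _ = _ := by
        rw [← mul_assoc (2⁻¹ : ℝ≥0∞) 2, ENNReal.inv_mul_cancel two_ne_zero ofNat_ne_top, one_mul,
          mul_assoc]

variable [Nontrivial E]

theorem four_pow_le_mul_choose (k : ℕ) : 4 ^ k ≤ (2 * k + 1) * (2 * k).choose k := by
  rcases Nat.eq_zero_or_pos k with rfl | hk
  · simp
  · rw [← Nat.centralBinom_eq_two_mul_choose]
    exact (Nat.four_pow_le_two_mul_self_mul_centralBinom k hk).trans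
      (Nat.mul_le_mul_right _ (Nat.le_succ _))

/-- **Exponential decay of the inverse norm.** -/
theorem exists_decay (hμ : ∀ᵐ A ∂μ, A ∈ unitDet E)
    (hno : ¬ ∃ ν : ProbabilityMeasure (Sph E), ∀ A ∈ μ.support, A ∈ stab (ν : Measure (Sph E))) :
    ∃ C r : ℝ, 0 < r ∧ r < 1 ∧ ∀ k : ℕ,
      ∫⁻ ω, ENNReal.ofReal (‖randProd k ω‖ ^ finrank ℝ E)⁻¹
        ∂(Measure.infinitePi fun _ : ℕ => μ) ≤ ENNReal.ofReal (C * r ^ k) := by
  obtain ⟨s, hs1, hs⟩ := exists_gap μ hμ hno
  have hρ : (2⁻¹ : ℝ≥0∞) * (1 + s) < 1 := by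
    calc (2⁻¹ : ℝ≥0∞) * (1 + s) < 2⁻¹ * 2 :=
          ENNReal.mul_lt_mul_right (ENNReal.inv_ne_zero.2 ofNat_ne_top) (inv_ne_top.2 two_ne_zero)
            (by rw [← one_add_one_eq_two]; exact ENNReal.add_lt_add_left one_ne_top hs1)
      _ = 1 := ENNReal.inv_mul_cancel two_ne_zero ofNat_ne_top
  set ρ := (2⁻¹ : ℝ≥0∞) * (1 + s) with hρdef
  set r : ℝ := √((1 + ρ.toReal) / 2) with hr
  have hρr : ρ.toReal < 1 := toReal_lt_of_lt_ofReal (by rwa [ofReal_one])
  have hr0 : 0 < r := Real.sqrt_pos.2 (by positivity)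
  have hr1 : r < 1 := by
    rw [hr, Real.sqrt_lt' one_pos]; linarith
  have hρle : ρ ≤ ENNReal.ofReal (r ^ 2) := by
    rw [← ofReal_toReal hρ.ne_top, hr, Real.sq_sqrt (by positivity)]
    exact ENNReal.ofReal_le_ofReal (by linarith)
  obtain ⟨C, hC⟩ : ∃ C : ℝ, ∀ k : ℕ, (2 * (k : ℝ) + 1) * r ^ k ≤ C := by
    have h := (((tendsto_self_mul_const_pow_of_lt_one hr0.le hr1).const_mul 2).add
      (tendsto_pow_atTop_nhds_zero_of_lt_one hr0.le hr1))
    obtain ⟨C, hC⟩ := h.bddAbove_range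
    exact ⟨C, fun k => le_trans (by ring_nf; rfl) (hC ⟨k, rfl⟩)⟩
  refine ⟨C, r, hr0, hr1, fun k => ?_⟩
  set B := closedBall (0 : E) 1
  set V := (volume : Measure E) B
  set f : E → ℝ≥0∞ := B.indicator 1 with hfdef
  have hB : MeasurableSet B := measurableSet_closedBall
  have hf : Measurable f := measurable_const.indicator hB
  have hf2 : ∫⁻ x, f x ^ 2 = V := by
    rw [show (fun x => f x ^ 2) = f from funext fun x => by
      by_cases hx : x ∈ B <;> simp [hfdef, hx], hfdef, lintegral_indicator_one hB]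
  have hV0 : V ≠ 0 := (measure_closedBall_pos _ _ one_pos).ne'
  have hVt : V ≠ ⊤ := measure_closedBall_lt_top.ne
  -- the powers of the lazy average
  have hLm : ∀ n, Measurable ((lazyAvg μ)^[n] f) := fun n => by
    induction n with
    | zero => exact hf
    | succ n ih => rw [Function.iterate_succ_apply']; exact measurable_lazyAvg μ ih
  have hLn : ∀ n, ∫⁻ x, (lazyAvg μ)^[n] f x ^ 2 ≤ ENNReal.ofReal (r ^ 2) ^ n * V := fun n => by
    induction n with
    | zero => simp [hf2]
    | succ n ih =>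
      rw [Function.iterate_succ_apply', pow_succ', mul_assoc]
      exact (lintegral_lazyAvg_sq_le hμ hs (hLm n)).trans (mul_le_mul' hρle ih)
  have hupper : ∫⁻ x, f x * (lazyAvg μ)^[2 * k] f x ≤ ENNReal.ofReal (r ^ (2 * k)) * V := by
    set q := ENNReal.ofReal (r ^ k) with hq
    have hq0 : q ≠ 0 := (ofReal_pos.2 (by positivity)).ne'
    have hqt : q ≠ ⊤ := ofReal_ne_top
    have hqq : ENNReal.ofReal (r ^ (2 * k)) = q ^ 2 := by
      rw [hq, ← ENNReal.ofReal_pow (by positivity), ← pow_mul, mul_comm]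
    have hqinv : q⁻¹ * q = 1 := ENNReal.inv_mul_cancel hq0 hqt
    have hpow : ENNReal.ofReal (r ^ 2) ^ (2 * k) = q ^ 2 * q ^ 2 := by
      rw [hq, ← ENNReal.ofReal_pow (by positivity), ← ENNReal.ofReal_pow (by positivity),
        ← ENNReal.ofReal_mul (by positivity)]
      congr 1; ring
    refine (ENNReal.mul_le_mul_iff_right two_ne_zero ofNat_ne_top).1 ?_
    rw [← lintegral_const_mul' _ _ ofNat_ne_top, hqq]
    calc ∫⁻ x, 2 * (f x * (lazyAvg μ)^[2 * k] f x)
        ≤ ∫⁻ x, ((q * f x) ^ 2 + (q⁻¹ * (lazyAvg μ)^[2 * k] f x) ^ 2) :=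
          lintegral_mono fun x => by
            refine le_trans (le_of_eq ?_) (two_mul_mul_le_sq_add _ _)
            rw [show q * f x * (q⁻¹ * (lazyAvg μ)^[2 * k] f x) =
              (q⁻¹ * q) * (f x * (lazyAvg μ)^[2 * k] f x) by ring, hqinv, one_mul]
      _ = q ^ 2 * V + q⁻¹ ^ 2 * ∫⁻ x, (lazyAvg μ)^[2 * k] f x ^ 2 := by
          simp only [mul_pow]
          rw [lintegral_add_left ((hf.pow_const 2).const_mul _),
            lintegral_const_mul _ (hf.pow_const 2), hf2,
            lintegral_const_mul _ ((hLm _).pow_const 2)]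
      _ ≤ q ^ 2 * V + q⁻¹ ^ 2 * (q ^ 2 * q ^ 2 * V) := by
          gcongr
          exact hpow ▸ hLn (2 * k)
      _ = 2 * (q ^ 2 * V) := by
          rw [show q⁻¹ ^ 2 * (q ^ 2 * q ^ 2 * V) = (q⁻¹ * q) ^ 2 * (q ^ 2 * V) by ring, hqinv,
            one_pow, one_mul, two_mul]
  -- the powers of the average
  have hmid : ∫⁻ x, f x * (avg μ)^[k] f x ≤
      ((2 * k + 1 : ℕ) : ℝ≥0∞) * (ENNReal.ofReal (r ^ (2 * k)) * V) := by
    refine le_trans ?_ (mul_le_mul' le_rfl hupper)
    rw [← lintegral_const_mul' _ _ (natCast_ne_top _)]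
    refine lintegral_mono fun x => ?_
    calc f x * (avg μ)^[k] f x = 1 * (f x * (avg μ)^[k] f x) := (one_mul _).symm
      _ ≤ (((2 * k + 1 : ℕ) : ℝ≥0∞) * ((2 * k).choose k : ℝ≥0∞) * 2⁻¹ ^ (2 * k)) *
            (f x * (avg μ)^[k] f x) := by
          refine mul_le_mul' ?_ le_rfl
          rw [← ENNReal.inv_pow, ← div_eq_mul_inv,
            ENNReal.le_div_iff_mul_le (Or.inl (by simp)) (Or.inl (by simp)), one_mul, pow_mul,
            show (2 : ℝ≥0∞) ^ 2 = ((4 : ℕ) : ℝ≥0∞) by norm_num]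
          exact_mod_cast four_pow_le_mul_choose k
      _ = ((2 * k + 1 : ℕ) : ℝ≥0∞) *
            (f x * (((2 * k).choose k : ℝ≥0∞) * 2⁻¹ ^ (2 * k) * (avg μ)^[k] f x)) := by ring
      _ ≤ _ := mul_le_mul' le_rfl (mul_le_mul' le_rfl (choose_mul_le_lazyAvg μ _ _ f x))
  -- the ball of radius `‖g‖⁻¹` is sent into the unit ball
  have hlow : V * ∫⁻ ω, ENNReal.ofReal (‖randProd k ω‖ ^ finrank ℝ E)⁻¹
      ∂(Measure.infinitePi fun _ : ℕ => μ) ≤ ∫⁻ x, f x * (avg μ)^[k] f x := by
    have hmeas : Measurable fun p : E × (ℕ → E →L[ℝ] E) => f p.1 * f (randProd k p.2 p.1) :=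
      (hf.comp measurable_fst).mul (hf.comp (measurable_eval.comp
        (((measurable_randProd k).comp measurable_snd).prodMk measurable_fst)))
    have hmω : ∀ x : E, Measurable fun ω => f (randProd k ω x) := fun x =>
      hf.comp (measurable_eval.comp ((measurable_randProd k).prodMk measurable_const))
    simp only [iterate_avg μ k hf, ← lintegral_const_mul _ (hmω _)]
    rw [lintegral_lintegral_swap hmeas.aemeasurable, ← lintegral_const_mul' _ _ hVt]
    refine lintegral_mono_ae ((ae_all_unitDet μ hμ).mono fun ω hω => ?_)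
    set g := randProd k ω
    have hg1 : 1 ≤ ‖g‖ := one_le_norm (randProd_mem_unitDet hω k)
    calc V * ENNReal.ofReal (‖g‖ ^ finrank ℝ E)⁻¹ = volume (closedBall (0 : E) ‖g‖⁻¹) := by
          rw [Measure.addHaar_closedBall' _ _ (inv_nonneg.2 (norm_nonneg _)), inv_pow, mul_comm]
      _ = ∫⁻ x, (closedBall (0 : E) ‖g‖⁻¹).indicator 1 x :=
          (lintegral_indicator_one measurableSet_closedBall).symm
      _ ≤ ∫⁻ x, f x * f (g x) := by
          refine lintegral_mono (indicator_le fun y hy => ?_)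
          rw [mem_closedBall_zero_iff] at hy
          have hy1 : y ∈ B := mem_closedBall_zero_iff.2 (hy.trans (inv_le_one_of_one_le₀ hg1))
          have hy2 : g y ∈ B := mem_closedBall_zero_iff.2 ((g.le_opNorm y).trans (by
            calc ‖g‖ * ‖y‖ ≤ ‖g‖ * ‖g‖⁻¹ := mul_le_mul_of_nonneg_left hy (norm_nonneg _)
              _ = 1 := mul_inv_cancel₀ (one_pos.trans_le hg1).ne'))
          simp [hfdef, hy1, hy2]
  calc ∫⁻ ω, ENNReal.ofReal (‖randProd k ω‖ ^ finrank ℝ E)⁻¹ ∂(Measure.infinitePi fun _ : ℕ => μ)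
      = V⁻¹ * (V * ∫⁻ ω, ENNReal.ofReal (‖randProd k ω‖ ^ finrank ℝ E)⁻¹
          ∂(Measure.infinitePi fun _ : ℕ => μ)) := by
        rw [← mul_assoc, ENNReal.inv_mul_cancel hV0 hVt, one_mul]
    _ ≤ V⁻¹ * (((2 * k + 1 : ℕ) : ℝ≥0∞) * (ENNReal.ofReal (r ^ (2 * k)) * V)) :=
        mul_le_mul' le_rfl (hlow.trans hmid)
    _ = ((2 * k + 1 : ℕ) : ℝ≥0∞) * ENNReal.ofReal (r ^ (2 * k)) := by
        rw [mul_comm _ V, mul_left_comm _ V, ← mul_assoc, ENNReal.inv_mul_cancel hV0 hVt, one_mul]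
    _ ≤ ENNReal.ofReal (C * r ^ k) := by
        rw [← ofReal_natCast, ← ENNReal.ofReal_mul (Nat.cast_nonneg _)]
        refine ENNReal.ofReal_le_ofReal ?_
        rw [two_mul k, pow_add, ← mul_assoc]
        exact mul_le_mul_of_nonneg_right (by push_cast; linarith [hC k]) (by positivity)

end FA.FurstenbergLyapunov
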