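import Fermat.Agent.FurstenbergLyapunov.Growth
import Mathlib.Analysis.InnerProductSpace.PiL2
import Mathlib.LinearAlgebra.Matrix.ToLin
import Mathlib.Analysis.CStarAlgebra.Matrix

/-!
# Two shears of the plane

The fair choice between the two unit shears satisfies the hypotheses of Furstenberg's theorem.
-/

set_option autoImplicit false

noncomputable section

namespace FA.FurstenbergLyapunov

open MeasureTheory Metric Filter Topology Module Set

/-- The Euclidean plane. -/
abbrev Plane : Type := EuclideanSpace ℝ (Fin 2)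

/-- The operator of a matrix. -/
def opOf (M : Matrix (Fin 2) (Fin 2) ℝ) : Plane →L[ℝ] Plane :=
  Matrix.toEuclideanCLM (n := Fin 2) (𝕜 := ℝ) M

theorem opOf_apply (M : Matrix (Fin 2) (Fin 2) ℝ) (v : Plane) (i : Fin 2) :
    opOf M v i = M i 0 * v 0 + M i 1 * v 1 := by
  simp [opOf, Matrix.ofLp_toEuclideanCLM, Matrix.mulVec, dotProduct, Fin.sum_univ_two]

theorem opOf_pow (M : Matrix (Fin 2) (Fin 2) ℝ) (m : ℕ) : opOf M ^ m = opOf (M ^ m) :=
  (map_pow (Matrix.toEuclideanCLM (n := Fin 2) (𝕜 := ℝ)) M m).symm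

theorem opOf_mem_unitDet {M : Matrix (Fin 2) (Fin 2) ℝ} (h : M.det = 1) :
    opOf M ∈ unitDet Plane := by
  show |LinearMap.det ((opOf M : Plane →L[ℝ] Plane) : Plane →ₗ[ℝ] Plane)| = 1
  rw [opOf, Matrix.coe_toEuclideanCLM_eq_toEuclideanLin,
    show Matrix.toEuclideanLin M = Matrix.toLpLin 2 2 M from rfl, Matrix.toLpLin_eq_toLin,
    LinearMap.det_toLin, h, abs_one]

/-- The upper shear. -/
def upperShear : Plane →L[ℝ] Plane := opOf !![1, 1; 0, 1]

/-- The lower shear. -/
def lowerShear : Plane →L[ℝ] Plane := opOf !![1, 0; 1, 1]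

theorem upperShear_pow_apply (m : ℕ) (v : Plane) :
    (upperShear ^ m) v 0 = v 0 + m * v 1 ∧ (upperShear ^ m) v 1 = v 1 := by
  have h : (!![1, 1; 0, 1] : Matrix (Fin 2) (Fin 2) ℝ) ^ m = !![1, (m : ℝ); 0, 1] := by
    induction m with
    | zero => simp [Matrix.one_fin_two]
    | succ m ih => rw [pow_succ, ih]; simp [add_comm]
  rw [upperShear, opOf_pow, h]
  simp [opOf_apply]

theorem lowerShear_pow_apply (m : ℕ) (v : Plane) :
    (lowerShear ^ m) v 0 = v 0 ∧ (lowerShear ^ m) v 1 = m * v 0 + v 1 := by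
  have h : (!![1, 0; 1, 1] : Matrix (Fin 2) (Fin 2) ℝ) ^ m = !![1, 0; (m : ℝ), 1] := by
    induction m with
    | zero => simp [Matrix.one_fin_two]
    | succ m ih => rw [pow_succ, ih]; simp
  rw [lowerShear, opOf_pow, h]
  simp [opOf_apply]

/-- The fair choice between the two shears. -/
def shearLaw : Measure (Plane →L[ℝ] Plane) :=
  (2⁻¹ : ENNReal) • Measure.dirac upperShear + (2⁻¹ : ENNReal) • Measure.dirac lowerShear

instance : IsProbabilityMeasure shearLaw :=
  ⟨by simp [shearLaw, ENNReal.inv_two_add_inv_two]⟩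

theorem shearLaw_ae : ∀ᵐ A ∂shearLaw, A ∈ unitDet Plane := by
  have h1 : upperShear ∈ unitDet Plane := opOf_mem_unitDet (by simp [Matrix.det_fin_two_of])
  have h2 : lowerShear ∈ unitDet Plane := opOf_mem_unitDet (by simp [Matrix.det_fin_two_of])
  simp [shearLaw, ae_iff, h1, h2, Set.indicator]

theorem upperShear_mem_support : upperShear ∈ shearLaw.support :=
  (Measure.mem_support_iff_forall _).2 fun U hU => by
    have h : Measure.dirac upperShear U = 1 := Measure.dirac_apply_of_mem (mem_of_mem_nhds hU)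
    simp [shearLaw, h]

theorem lowerShear_mem_support : lowerShear ∈ shearLaw.support :=
  (Measure.mem_support_iff_forall _).2 fun U hU => by
    have h : Measure.dirac lowerShear U = 1 := Measure.dirac_apply_of_mem (mem_of_mem_nhds hU)
    simp [shearLaw, h]

theorem shearLaw_unbounded : Unbounded shearLaw.support := by
  intro M
  obtain ⟨m, hm⟩ := exists_nat_gt M
  refine ⟨upperShear ^ m, pow_mem (Submonoid.subset_closure upperShear_mem_support) m, ?_⟩
  refine hm.trans_le ?_
  set e : Plane := EuclideanSpace.single 1 1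
  have h1 := (upperShear ^ m).le_opNorm e
  have h2 : ‖(upperShear ^ m) e 0‖ ≤ ‖(upperShear ^ m) e‖ := PiLp.norm_apply_le _ _
  have h3 : ‖e‖ = 1 := by simp [e]
  rw [(upperShear_pow_apply m e).1] at h2
  rw [h3, mul_one] at h1
  simpa [e] using h2.trans h1

theorem shearLaw_irreducible : StronglyIrreducible shearLaw.support := by
  rintro ⟨F, ⟨W, hW⟩, hFp, hFi⟩
  have hper : ∀ A ∈ shearLaw.support, A ∈ unitDet Plane →
      ∃ j : ℕ, 0 < j ∧ ∀ v ∈ W, (A ^ j) v ∈ W := by
    intro A hA hA1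
    have hit : ∀ m, W.map ((A ^ m : Plane →L[ℝ] Plane) : Plane →ₗ[ℝ] Plane) ∈ F := by
      intro m
      induction m with
      | zero =>
        rw [pow_zero, ContinuousLinearMap.toLinearMap_one, Module.End.one_eq_id, Submodule.map_id]
        exact hW
      | succ m ih =>
        have h := hFi A hA _ ih
        rwa [← Submodule.map_comp, show (A : Plane →ₗ[ℝ] Plane) ∘ₗ
          ((A ^ m : Plane →L[ℝ] Plane) : Plane →ₗ[ℝ] Plane) =
          ((A ^ (m + 1) : Plane →L[ℝ] Plane) : Plane →ₗ[ℝ] Plane) by rw [pow_succ']; rfl] at h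
    obtain ⟨a, ha, b, hb, hne, he⟩ := Finset.exists_ne_map_eq_of_card_lt_of_maps_to
      (s := Finset.range (F.card + 1)) (t := F) (by simp) (fun m _ => hit m)
    wlog hab : a < b generalizing a b
    · exact this b hb a ha hne.symm he.symm (lt_of_le_of_ne (not_lt.1 hab) hne.symm)
    refine ⟨b - a, Nat.sub_pos_of_lt hab, fun v hv => ?_⟩
    have hp : ∀ m, A ^ m ∈ unitDet Plane := fun m => by
      induction m with
      | zero => exact one_mem_unitDet
      | succ m ih => rw [pow_succ]; exact mul_mem_unitDet ih hA1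
    have hmem : (A ^ b) v ∈ W.map ((A ^ a : Plane →L[ℝ] Plane) : Plane →ₗ[ℝ] Plane) :=
      he ▸ Submodule.mem_map_of_mem hv
    obtain ⟨u, hu, hue⟩ := hmem
    rw [← Nat.add_sub_cancel' hab.le, pow_add, mul_apply_eq_comp] at hue
    exact injective_of_unitDet (hp a) hue ▸ hu
  obtain ⟨i, hi, hU⟩ := hper _ upperShear_mem_support (opOf_mem_unitDet
    (by simp [Matrix.det_fin_two_of]))
  obtain ⟨j, hj, hV⟩ := hper _ lowerShear_mem_support (opOf_mem_unitDet
    (by simp [Matrix.det_fin_two_of]))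
  have h10 : ∀ v ∈ W, v 1 ≠ 0 → EuclideanSpace.single 0 1 ∈ W := fun v hv h => by
    have h1 : ((i : ℝ) * v 1)⁻¹ • ((upperShear ^ i) v - v) ∈ W :=
      W.smul_mem _ (W.sub_mem (hU v hv) hv)
    obtain ⟨p0, p1⟩ := upperShear_pow_apply i v
    generalize (upperShear ^ i) v = w at h1 p0 p1
    convert h1 using 1
    ext k
    have hi0 : (i : ℝ) ≠ 0 := Nat.cast_ne_zero.2 hi.ne'
    fin_cases k
    · simp [p0]
      field_simp
    · simp [p1]
  have h01 : ∀ v ∈ W, v 0 ≠ 0 → EuclideanSpace.single 1 1 ∈ W := fun v hv h => by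
    have h1 : ((j : ℝ) * v 0)⁻¹ • ((lowerShear ^ j) v - v) ∈ W :=
      W.smul_mem _ (W.sub_mem (hV v hv) hv)
    obtain ⟨p0, p1⟩ := lowerShear_pow_apply j v
    generalize (lowerShear ^ j) v = w at h1 p0 p1
    convert h1 using 1
    ext k
    have hj0 : (j : ℝ) ≠ 0 := Nat.cast_ne_zero.2 hj.ne'
    fin_cases k
    · simp [p0]
    · simp [p1]
      field_simp
  obtain ⟨v, hv, hv0⟩ := (Submodule.ne_bot_iff _).1 (hFp W hW).1
  obtain ⟨e0, e1⟩ : EuclideanSpace.single 0 1 ∈ W ∧ EuclideanSpace.single 1 1 ∈ W := by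
    by_cases h : v 1 = 0
    · have h0 : v 0 ≠ 0 := fun h0 => hv0 (by ext k; fin_cases k <;> simp [h, h0])
      have := h01 v hv h0
      exact ⟨h10 _ this (by simp), this⟩
    · have := h10 v hv h
      exact ⟨this, h01 _ this (by simp)⟩
  refine (hFp W hW).2 (eq_top_iff.2 fun x _ => ?_)
  rw [show x = x 0 • EuclideanSpace.single 0 (1 : ℝ) + x 1 • EuclideanSpace.single 1 (1 : ℝ) by
    ext k; fin_cases k <;> simp]
  exact W.add_mem (W.smul_mem _ e0) (W.smul_mem _ e1)

/-- Products of the two shears in random order grow exponentially. -/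
theorem shearLaw_exponent : ∃ γ : ℝ, 0 < γ ∧
    ∀ᵐ x ∂(Measure.infinitePi fun _ : ℕ => shearLaw),
      Tendsto (fun n : ℕ => Real.log ‖randProd n x‖ / n) atTop (𝓝 γ) := by
  obtain ⟨γ, h0, h, -⟩ := exists_exponent shearLaw shearLaw_ae shearLaw_unbounded
    shearLaw_irreducible (Integrable.add_measure
      ((integrable_dirac (enorm_lt_top)).smul_measure (by simp))
      ((integrable_dirac (enorm_lt_top)).smul_measure (by simp)))
  exact ⟨γ, h0, h⟩

end FA.FurstenbergLyapunov
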