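import Fermat.Agent.FurstenbergLyapunov.Sphere
import Mathlib.MeasureTheory.Measure.Prokhorov
import Mathlib.MeasureTheory.Measure.LevyProkhorovMetric
import Mathlib.MeasureTheory.Measure.Support
import Mathlib.MeasureTheory.Integral.Prod
import Mathlib.Analysis.Normed.Module.FiniteDimension

/-!
# The spectral gap on square integrable functions

If no probability measure on the sphere is preserved by the support of a law `μ` on the operators
of determinant `±1`, then averaging over `μ` pairs with square integrable functions with norm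
less than one: almost invariant functions would give an invariant measure in the limit.
-/

set_option autoImplicit false

noncomputable section

namespace FA.FurstenbergLyapunov

open MeasureTheory Metric Filter Topology Module Set ENNReal
open scoped BoundedContinuousFunction

variable {E : Type*} [NormedAddCommGroup E] [InnerProductSpace ℝ E] [FiniteDimensional ℝ E]
  [MeasurableSpace E] [BorelSpace E]

/-- The average of `f` over the images under a random operator. -/
def avg (μ : Measure (E →L[ℝ] E)) (f : E → ℝ≥0∞) (x : E) : ℝ≥0∞ := ∫⁻ A, f (A x) ∂μ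

omit [InnerProductSpace ℝ E] [FiniteDimensional ℝ E] [MeasurableSpace E] [BorelSpace E] in
theorem two_mul_mul_le_sq_add (a b : ℝ≥0∞) : 2 * (a * b) ≤ a ^ 2 + b ^ 2 := by
  rcases le_total a b with h | h
  · obtain ⟨c, rfl⟩ := exists_add_of_le h
    calc 2 * (a * (a + c)) ≤ 2 * (a * (a + c)) + c ^ 2 := le_self_add
      _ = a ^ 2 + (a + c) ^ 2 := by ring
  · obtain ⟨c, rfl⟩ := exists_add_of_le h
    calc 2 * ((b + c) * b) ≤ 2 * ((b + c) * b) + c ^ 2 := le_self_add
      _ = (b + c) ^ 2 + b ^ 2 := by ring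

theorem measurable_eval : Measurable fun p : (E →L[ℝ] E) × E => p.1 p.2 := by fun_prop

theorem measurePreserving_of_unitDet {A : E →L[ℝ] E} (hA : A ∈ unitDet E) :
    MeasurePreserving A (volume : Measure E) volume := by
  have hA1 : |LinearMap.det (A : E →ₗ[ℝ] E)| = 1 := hA
  have h : LinearMap.det (A : E →ₗ[ℝ] E) ≠ 0 := fun h => by simp [h] at hA1
  refine ⟨A.continuous.measurable, ?_⟩
  have h2 := Measure.map_linearMap_addHaar_eq_smul_addHaar (μ := (volume : Measure E)) h
  rwa [abs_inv, hA1, inv_one, ofReal_one, one_smul] at h2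

theorem measurable_avg (μ : Measure (E →L[ℝ] E)) [SFinite μ] {f : E → ℝ≥0∞} (hf : Measurable f) :
    Measurable (avg μ f) :=
  Measurable.lintegral_prod_left' (f := fun p : (E →L[ℝ] E) × E => f (p.1 p.2))
    (hf.comp measurable_eval)

variable (μ : Measure (E →L[ℝ] E)) [IsProbabilityMeasure μ]

omit [FiniteDimensional ℝ E] [BorelSpace E] [MeasurableSpace E] [IsProbabilityMeasure μ] in
theorem avg_mono {f g : E → ℝ≥0∞} (h : ∀ x, f x ≤ g x) (x : E) : avg μ f x ≤ avg μ g x :=
  lintegral_mono fun _ => h _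

theorem lintegral_avg (hμ : ∀ᵐ A ∂μ, A ∈ unitDet E) {f : E → ℝ≥0∞} (hf : Measurable f) :
    ∫⁻ x, avg μ f x = ∫⁻ x, f x := by
  simp only [avg]
  rw [lintegral_lintegral_swap (f := fun (x : E) (A : E →L[ℝ] E) => f (A x))
    ((hf.comp measurable_eval).comp measurable_swap).aemeasurable]
  have h : ∀ᵐ A ∂μ, ∫⁻ x, f (A x) = ∫⁻ x, f x := hμ.mono fun A hA =>
    (measurePreserving_of_unitDet hA).lintegral_comp hf
  rw [lintegral_congr_ae h, lintegral_const, measure_univ, mul_one]

omit [FiniteDimensional ℝ E] in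
theorem avg_sq_le {f : E → ℝ≥0∞} (hf : Measurable f) (x : E) :
    avg μ f x ^ 2 ≤ avg μ (fun y => f y ^ 2) x := by
  have hm : Measurable fun A : E →L[ℝ] E => f (A x) :=
    hf.comp (ContinuousLinearMap.apply ℝ E x).continuous.measurable
  have h : 2 * avg μ f x ^ 2 ≤ 2 * avg μ (fun y => f y ^ 2) x := by
    calc 2 * avg μ f x ^ 2 = ∫⁻ A, ∫⁻ B, 2 * (f (A x) * f (B x)) ∂μ ∂μ := by
          simp only [avg]
          rw [sq, ← mul_assoc, ← lintegral_const_mul 2 hm,
            ← lintegral_mul_const _ (hm.const_mul 2)]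
          refine lintegral_congr fun A => ?_
          rw [← lintegral_const_mul _ hm]
          exact lintegral_congr fun B => by ring
      _ ≤ ∫⁻ A, ∫⁻ B, (f (A x) ^ 2 + f (B x) ^ 2) ∂μ ∂μ :=
          lintegral_mono fun A => lintegral_mono fun B => two_mul_mul_le_sq_add _ _
      _ = 2 * avg μ (fun y => f y ^ 2) x := by
          simp only [lintegral_add_left measurable_const, lintegral_const, measure_univ, mul_one]
          rw [lintegral_add_left (hm.pow_const 2), lintegral_const, measure_univ, mul_one,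
            two_mul]
          rfl
  exact (ENNReal.mul_le_mul_iff_right two_ne_zero ofNat_ne_top).1 h

theorem lintegral_mul_avg_le (hμ : ∀ᵐ A ∂μ, A ∈ unitDet E) {f : E → ℝ≥0∞} (hf : Measurable f) :
    ∫⁻ x, f x * avg μ f x ≤ ∫⁻ x, f x ^ 2 := by
  have h : 2 * ∫⁻ x, f x * avg μ f x ≤ 2 * ∫⁻ x, f x ^ 2 := by
    calc 2 * ∫⁻ x, f x * avg μ f x = ∫⁻ x, 2 * (f x * avg μ f x) :=
          (lintegral_const_mul _ (hf.mul (measurable_avg μ hf))).symm
      _ ≤ ∫⁻ x, (f x ^ 2 + avg μ f x ^ 2) := lintegral_mono fun x => two_mul_mul_le_sq_add _ _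
      _ ≤ ∫⁻ x, (f x ^ 2 + avg μ (fun y => f y ^ 2) x) :=
          lintegral_mono fun x => add_le_add le_rfl (avg_sq_le μ hf x)
      _ = 2 * ∫⁻ x, f x ^ 2 := by
          rw [lintegral_add_left (hf.pow_const 2), lintegral_avg μ hμ (hf.pow_const 2), two_mul]
  exact (ENNReal.mul_le_mul_iff_right two_ne_zero ofNat_ne_top).1 h

/-! ### Almost invariant functions give invariant measures -/

/-- The defect of invariance of `g` under `A`. -/
def defect (g : E → ℝ) (A : E →L[ℝ] E) : ℝ≥0∞ := ∫⁻ x, ENNReal.ofReal ((g x - g (A x)) ^ 2)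

theorem lintegral_defect_add (hμ : ∀ᵐ A ∂μ, A ∈ unitDet E) {g : E → ℝ} (hg : Measurable g)
    (hg0 : ∀ x, 0 ≤ g x) :
    ∫⁻ A, defect g A ∂μ +
        2 * ∫⁻ x, ENNReal.ofReal (g x) * avg μ (fun y => ENNReal.ofReal (g y)) x =
      2 * ∫⁻ x, ENNReal.ofReal (g x) ^ 2 := by
  set f : E → ℝ≥0∞ := fun x => ENNReal.ofReal (g x) with hfdef
  have hf : Measurable f := hg.ennreal_ofReal
  have h2m : Measurable fun p : E × (E →L[ℝ] E) => g (p.2 p.1) :=
    hg.comp (measurable_eval.comp measurable_swap)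
  have hd : Measurable fun p : E × (E →L[ℝ] E) =>
      ENNReal.ofReal ((g p.1 - g (p.2 p.1)) ^ 2) :=
    (((hg.comp measurable_fst).sub h2m).pow_const 2).ennreal_ofReal
  have hpt : ∀ x (A : E →L[ℝ] E), ENNReal.ofReal ((g x - g (A x)) ^ 2) + 2 * (f x * f (A x)) =
      f x ^ 2 + f (A x) ^ 2 := fun x A => by
    simp only [hfdef]
    rw [← ENNReal.ofReal_mul (hg0 _), ← ENNReal.ofReal_pow (hg0 _), ← ENNReal.ofReal_pow (hg0 _),
      show (2 : ℝ≥0∞) = ENNReal.ofReal 2 by simp, ← ENNReal.ofReal_mul zero_le_two,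
      ← ENNReal.ofReal_add (sq_nonneg _) (by have := hg0 x; have := hg0 (A x); positivity),
      ← ENNReal.ofReal_add (sq_nonneg _) (sq_nonneg _)]
    congr 1
    ring
  have hx : ∀ x, (∫⁻ A, ENNReal.ofReal ((g x - g (A x)) ^ 2) ∂μ) + 2 * (f x * avg μ f x) =
      f x ^ 2 + avg μ (fun y => f y ^ 2) x := fun x => by
    have hm : Measurable fun A : E →L[ℝ] E => f (A x) :=
      hf.comp (ContinuousLinearMap.apply ℝ E x).continuous.measurable
    rw [avg, avg, ← lintegral_const_mul _ hm, ← lintegral_const_mul _ (hm.const_mul _),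
      ← lintegral_add_right _ ((hm.const_mul _).const_mul _), lintegral_congr (hpt x),
      lintegral_add_left measurable_const, lintegral_const, measure_univ, mul_one]
  have hswap : ∫⁻ A, defect g A ∂μ =
      ∫⁻ x, ∫⁻ A, ENNReal.ofReal ((g x - g (A x)) ^ 2) ∂μ :=
    (lintegral_lintegral_swap hd.aemeasurable).symm
  show _ + 2 * ∫⁻ x, f x * avg μ f x = 2 * ∫⁻ x, f x ^ 2
  rw [hswap, ← lintegral_const_mul 2 (f := fun x => f x * avg μ f x) (hf.mul (measurable_avg μ hf)),
    ← lintegral_add_left hd.lintegral_prod_right', lintegral_congr hx,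
    lintegral_add_left (hf.pow_const 2), lintegral_avg μ hμ (hf.pow_const 2), two_mul]

variable [Nontrivial E]

/-- The distribution of the direction, for the density `g ^ 2`. -/
def dirLaw (g : E → ℝ) : Measure (Sph E) :=
  (volume.withDensity fun x => ENNReal.ofReal (g x ^ 2)).map dir

theorem integral_dirLaw {g : E → ℝ} (hg : Measurable g) {φ : Sph E → ℝ} (hφ : Measurable φ) :
    ∫ v, φ v ∂(dirLaw g) = ∫ x, φ (dir x) * g x ^ 2 := by
  rw [dirLaw, integral_map measurable_dir.aemeasurable hφ.aestronglyMeasurable,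
    integral_withDensity_eq_integral_toReal_smul (hg.pow_const 2).ennreal_ofReal
      (.of_forall fun x => ofReal_lt_top)]
  exact integral_congr_ae (.of_forall fun x => by
    show (ENNReal.ofReal (g x ^ 2)).toReal * φ (dir x) = φ (dir x) * g x ^ 2
    rw [toReal_ofReal (sq_nonneg _), mul_comm])

theorem abs_integral_act_sub_le {g : E → ℝ} (hg : Measurable g)
    (hg1 : ∫⁻ x, ENNReal.ofReal (g x ^ 2) = 1) (φ : Sph E →ᵇ ℝ) {A : E →L[ℝ] E}
    (hA : A ∈ unitDet E) {t : ℝ} (ht : 0 < t) :
    ENNReal.ofReal |(∫ v, φ (act A v) ∂(dirLaw g)) - ∫ v, φ v ∂(dirLaw g)| ≤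
      ENNReal.ofReal (‖φ‖ / (2 * t)) * defect g A + ENNReal.ofReal (‖φ‖ * t * 2) := by
  have hmp := measurePreserving_of_unitDet hA
  have hq : Integrable fun x => g x ^ 2 :=
    ⟨(hg.pow_const 2).aestronglyMeasurable, (hasFiniteIntegral_iff_ofReal
      (.of_forall fun x => sq_nonneg (g x))).2 (by simpa only [hg1] using one_lt_top)⟩
  have hqA : Integrable fun x => g (A x) ^ 2 := hmp.integrable_comp_of_integrable hq
  have hb : ∀ {h : E → Sph E}, Measurable h →
      AEStronglyMeasurable (fun x => φ (h x)) (volume : Measure E) :=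
    fun hh => (φ.continuous.measurable.comp hh).aestronglyMeasurable
  have hdA : Measurable fun x : E => dir (A x) := measurable_dir.comp A.continuous.measurable
  have e1 : ∫ v, φ (act A v) ∂(dirLaw g) = ∫ x, φ (dir (A x)) * g x ^ 2 := by
    rw [integral_dirLaw hg (φ := fun v => φ (act A v))
      (φ.continuous.measurable.comp (measurable_act A))]
    refine integral_congr_ae ?_
    filter_upwards [ae_iff.2 (by simp : volume {x : E | ¬ x ≠ 0} = 0)] with x hx
    show φ (dir (A (dir x : E))) * g x ^ 2 = _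
    rw [coe_dir hx, map_smul, dir_smul (inv_pos.2 (norm_pos_iff.2 hx)) (apply_ne_zero hA hx)]
  have e2 : ∫ v, φ v ∂(dirLaw g) = ∫ x, φ (dir (A x)) * g (A x) ^ 2 := by
    rw [integral_dirLaw hg φ.continuous.measurable]
    conv_lhs => rw [← hmp.map_eq]
    exact integral_map A.continuous.aemeasurable
      ((φ.continuous.measurable.comp measurable_dir).mul (hg.pow_const 2)).aestronglyMeasurable
  have i1 : Integrable fun x => φ (dir (A x)) * g x ^ 2 :=
    hq.bdd_mul (hb hdA) (.of_forall fun x => φ.norm_coe_le_norm _)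
  have i2 : Integrable fun x => φ (dir (A x)) * g (A x) ^ 2 :=
    hqA.bdd_mul (hb hdA) (.of_forall fun x => φ.norm_coe_le_norm _)
  rw [e1, e2, ← integral_sub i1 i2, ← Real.norm_eq_abs]
  refine (ENNReal.ofReal_le_ofReal (norm_integral_le_integral_norm _)).trans ?_
  rw [← Real.enorm_eq_ofReal (integral_nonneg fun _ => norm_nonneg _)]
  refine (enorm_integral_le_lintegral_enorm _).trans ?_
  have hm2 : Measurable fun x => ENNReal.ofReal ((g x - g (A x)) ^ 2) :=
    ((hg.sub (hg.comp A.continuous.measurable)).pow_const 2).ennreal_ofReal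
  calc ∫⁻ x, ‖‖φ (dir (A x)) * g x ^ 2 - φ (dir (A x)) * g (A x) ^ 2‖‖ₑ
      ≤ ∫⁻ x, (ENNReal.ofReal (‖φ‖ / (2 * t)) * ENNReal.ofReal ((g x - g (A x)) ^ 2) +
          ENNReal.ofReal (‖φ‖ * t) *
            (ENNReal.ofReal (g x ^ 2) + ENNReal.ofReal (g (A x) ^ 2))) := by
        refine lintegral_mono fun x => ?_
        rw [enorm_norm, Real.enorm_eq_ofReal_abs, ← ENNReal.ofReal_add (sq_nonneg _) (sq_nonneg _),
          ← ENNReal.ofReal_mul (by positivity), ← ENNReal.ofReal_mul (by positivity),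
          ← ENNReal.ofReal_add (by positivity) (by positivity)]
        refine ENNReal.ofReal_le_ofReal ?_
        rw [← mul_sub, abs_mul]
        refine (mul_le_mul_of_nonneg_right (φ.norm_coe_le_norm _) (abs_nonneg _)).trans ?_
        have key : |g x ^ 2 - g (A x) ^ 2| ≤
            (g x - g (A x)) ^ 2 / (2 * t) + t * (g x ^ 2 + g (A x) ^ 2) := by
          have hb2 : (g x + g (A x)) ^ 2 ≤ 2 * (g x ^ 2 + g (A x) ^ 2) := add_sq_le
          rw [div_add' _ _ _ (by positivity), le_div_iff₀ (by positivity),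
            show g x ^ 2 - g (A x) ^ 2 = (g x - g (A x)) * (g x + g (A x)) by ring, abs_mul]
          nlinarith [sq_nonneg (|g x - g (A x)| - t * |g x + g (A x)|), sq_abs (g x - g (A x)),
            sq_abs (g x + g (A x)), mul_le_mul_of_nonneg_left hb2 (sq_nonneg t)]
        calc ‖φ‖ * |g x ^ 2 - g (A x) ^ 2|
            ≤ ‖φ‖ * ((g x - g (A x)) ^ 2 / (2 * t) + t * (g x ^ 2 + g (A x) ^ 2)) :=
              mul_le_mul_of_nonneg_left key (norm_nonneg _)
          _ = _ := by ring
    _ = _ := by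
        rw [lintegral_add_left (hm2.const_mul _), lintegral_const_mul _ hm2,
          lintegral_const_mul' _ _ ofReal_ne_top,
          lintegral_add_left (hg.pow_const 2).ennreal_ofReal, hg1,
          hmp.lintegral_comp (f := fun y => ENNReal.ofReal (g y ^ 2))
            (hg.pow_const 2).ennreal_ofReal, hg1, one_add_one_eq_two,
          ← ENNReal.ofReal_ofNat 2, ← ENNReal.ofReal_mul (by positivity)]
        rfl

/-- **Almost invariant functions give an invariant measure on the sphere.** -/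
theorem exists_invariant_measure (hμ : ∀ᵐ A ∂μ, A ∈ unitDet E) (g : ℕ → E → ℝ)
    (hg : ∀ k, Measurable (g k)) (hg1 : ∀ k, ∫⁻ x, ENNReal.ofReal (g k x ^ 2) = 1)
    (hlim : Tendsto (fun k => ∫⁻ A, defect (g k) A ∂μ) atTop (𝓝 0)) :
    ∃ ν : ProbabilityMeasure (Sph E), ∀ A ∈ μ.support, A ∈ stab (ν : Measure (Sph E)) := by
  have hprob : ∀ k, IsProbabilityMeasure (dirLaw (g k)) := fun k => by
    have : IsProbabilityMeasure (volume.withDensity fun x => ENNReal.ofReal (g k x ^ 2)) :=
      ⟨by rw [withDensity_apply _ MeasurableSet.univ, setLIntegral_univ, hg1]⟩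
    exact Measure.isProbabilityMeasure_map measurable_dir.aemeasurable
  set P : ℕ → ProbabilityMeasure (Sph E) := fun k => ⟨dirLaw (g k), hprob k⟩
  obtain ⟨ν, -, s, hs, hν⟩ := (isCompact_univ (X := ProbabilityMeasure (Sph E))).tendsto_subseq
    (x := P) fun k => mem_univ _
  rw [ProbabilityMeasure.tendsto_iff_forall_integral_tendsto] at hν
  refine ⟨ν, fun A hA => ?_⟩
  have hsub : μ.support ⊆ unitDet E := Measure.support_subset_of_isClosed isClosed_unitDet hμ
  refine mem_stab.2 ⟨hsub hA, ?_⟩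
  have : IsProbabilityMeasure ((ν : Measure (Sph E)).map (act A)) :=
    Measure.isProbabilityMeasure_map (measurable_act A).aemeasurable
  refine ext_of_forall_integral_eq_of_IsFiniteMeasure fun φ => ?_
  rw [integral_map (measurable_act A).aemeasurable φ.continuous.aestronglyMeasurable]
  set F : (E →L[ℝ] E) → ℝ := fun B => ∫ v, φ (act B v) ∂(ν : Measure (Sph E)) with hF
  set c : ℝ := ∫ v, φ v ∂(ν : Measure (Sph E)) with hc
  have hmF : ∀ (k : ℕ), Measurable fun B : E →L[ℝ] E => ∫ v, φ (act B v) ∂(dirLaw (g k)) := by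
    intro k
    have := hprob k
    exact (StronglyMeasurable.integral_prod_right
      (f := fun (B : E →L[ℝ] E) (v : Sph E) => φ (act B v))
      ((φ.continuous.measurable.comp (measurable_dir.comp (measurable_eval.comp
        (measurable_fst.prodMk (measurable_subtype_coe.comp measurable_snd))))).stronglyMeasurable
        )).measurable
  have hzero : ∫⁻ B, ENNReal.ofReal |F B - c| ∂μ = 0 := by
    have hb : ∀ t : ℝ, 0 < t →
        ∫⁻ B, ENNReal.ofReal |F B - c| ∂μ ≤ ENNReal.ofReal (‖φ‖ * t * 2) := by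
      intro t ht
      set u : ℕ → (E →L[ℝ] E) → ℝ≥0∞ := fun k B => ENNReal.ofReal
        |(∫ v, φ (act B v) ∂(dirLaw (g (s k)))) - ∫ v, φ v ∂(dirLaw (g (s k)))| with hu
      have hptw : ∀ᵐ B ∂μ, ENNReal.ofReal |F B - c| = liminf (fun k => u k B) atTop := by
        filter_upwards [hμ] with B hB
        have h1 := hν (φ.compContinuous ⟨act B, continuous_act hB⟩)
        have h2 := hν φ
        exact ((ENNReal.tendsto_ofReal ((h1.sub h2).abs)).liminf_eq).symm
      rw [lintegral_congr_ae hptw]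
      refine (lintegral_liminf_le fun k =>
        (continuous_abs.measurable.comp ((hmF (s k)).sub measurable_const)).ennreal_ofReal).trans ?_
      have hup : Tendsto (fun k => ENNReal.ofReal (‖φ‖ / (2 * t)) *
          ∫⁻ B, defect (g (s k)) B ∂μ + ENNReal.ofReal (‖φ‖ * t * 2)) atTop
          (𝓝 (ENNReal.ofReal (‖φ‖ * t * 2))) := by
        simpa using (ENNReal.Tendsto.const_mul (hlim.comp hs.tendsto_atTop)
          (Or.inr ofReal_ne_top)).add_const (ENNReal.ofReal (‖φ‖ * t * 2))
      refine (liminf_le_liminf (.of_forall fun k => ?_)).trans hup.liminf_eq.le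
      calc ∫⁻ B, u k B ∂μ
          ≤ ∫⁻ B, (ENNReal.ofReal (‖φ‖ / (2 * t)) * defect (g (s k)) B +
              ENNReal.ofReal (‖φ‖ * t * 2)) ∂μ :=
            lintegral_mono_ae (hμ.mono fun B hB =>
              abs_integral_act_sub_le (hg _) (hg1 _) φ hB ht)
        _ = _ := by
            rw [lintegral_add_right _ measurable_const, lintegral_const_mul' _ _ ofReal_ne_top,
              lintegral_const, measure_univ, mul_one]
    refine nonpos_iff_eq_zero.1 (ge_of_tendsto' (f := fun k : ℕ =>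
      ENNReal.ofReal (‖φ‖ * (1 / ((k : ℝ) + 1)) * 2)) (x := atTop) ?_
      fun k => hb _ (by positivity))
    simpa using ENNReal.tendsto_ofReal
      ((tendsto_one_div_add_atTop_nhds_zero_nat.const_mul ‖φ‖).mul_const 2)
  have hcont : ContinuousOn F (unitDet E) := by
    refine continuousOn_of_dominated (bound := fun _ => ‖φ‖) (fun B _ => ?_) (fun B _ => ?_)
      (integrable_const _) (.of_forall fun v => ?_)
    · exact (φ.continuous.measurable.comp (measurable_act B)).aestronglyMeasurable
    · exact .of_forall fun v => φ.norm_coe_le_norm _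
    · intro B hB
      have h1 : ContinuousAt (fun C : E →L[ℝ] E => dir (C (v : E))) B :=
        (continuousAt_dir (apply_ne_zero hB (sph_ne_zero v))).comp
          (f := fun C : E →L[ℝ] E => C (v : E))
          (ContinuousLinearMap.apply ℝ E (v : E)).continuous.continuousAt
      exact (φ.continuous.continuousAt.comp h1).continuousWithinAt
  have hclosed : IsClosed (unitDet E ∩ F ⁻¹' {c}) :=
    hcont.preimage_isClosed_of_isClosed isClosed_unitDet isClosed_singleton
  have hmeasF : Measurable F := by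
    exact (StronglyMeasurable.integral_prod_right
      (f := fun (B : E →L[ℝ] E) (v : Sph E) => φ (act B v))
      ((φ.continuous.measurable.comp (measurable_dir.comp (measurable_eval.comp
        (measurable_fst.prodMk (measurable_subtype_coe.comp measurable_snd))))).stronglyMeasurable
        )).measurable
  have hae : unitDet E ∩ F ⁻¹' {c} ∈ ae μ := by
    filter_upwards [hμ,
      (lintegral_eq_zero_iff
        (continuous_abs.measurable.comp (hmeasF.sub measurable_const)).ennreal_ofReal).1 hzero]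
      with B hB h0
    refine ⟨hB, ?_⟩
    simpa [sub_eq_zero] using h0
  exact (Measure.support_subset_of_isClosed hclosed hae hA).2

/-- **The spectral gap.** -/
theorem exists_gap (hμ : ∀ᵐ A ∂μ, A ∈ unitDet E)
    (hno : ¬ ∃ ν : ProbabilityMeasure (Sph E), ∀ A ∈ μ.support, A ∈ stab (ν : Measure (Sph E))) :
    ∃ s : ℝ≥0∞, s < 1 ∧ ∀ f : E → ℝ≥0∞, Measurable f →
      ∫⁻ x, f x * avg μ f x ≤ s * ∫⁻ x, f x ^ 2 := by
  by_contra hall
  push Not at hall
  have hs0 : ∀ k : ℕ, (0 : ℝ) < 1 - 1 / ((k : ℝ) + 2) := fun k => by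
    rw [sub_pos, div_lt_one (by positivity)]
    linarith [(k.cast_nonneg : (0 : ℝ) ≤ k)]
  have hg : ∀ k : ℕ, ∃ g : E → ℝ, Measurable g ∧ ∫⁻ x, ENNReal.ofReal (g x ^ 2) = 1 ∧
      ∫⁻ A, defect g A ∂μ ≤ ENNReal.ofReal (2 * (1 / ((k : ℝ) + 2))) := by
    intro k
    set a : ℝ := 1 - 1 / ((k : ℝ) + 2) with ha
    obtain ⟨f, hf, hfs⟩ := hall (ENNReal.ofReal a) (ofReal_lt_one.2 (by
      have : (0 : ℝ) < 1 / ((k : ℝ) + 2) := by positivity
      linarith))
    set I := ∫⁻ x, f x ^ 2 with hI
    have hI0 : I ≠ 0 := fun h0 => by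
      have h1 := hfs.trans_le (lintegral_mul_avg_le μ hμ hf)
      rw [← hI, h0, mul_zero] at h1
      exact lt_irrefl _ h1
    have hItop : I ≠ ⊤ := fun h1 => by
      rw [h1, ENNReal.mul_top (ofReal_pos.2 (hs0 k)).ne'] at hfs
      exact not_top_lt hfs
    set c : ℝ := √(I.toReal⁻¹) with hc
    have hc0 : 0 ≤ c := Real.sqrt_nonneg _
    set g : E → ℝ := fun x => c * (f x).toReal with hgdef
    have hgm : Measurable g := hf.ennreal_toReal.const_mul c
    have hg0 : ∀ x, 0 ≤ g x := fun x => mul_nonneg hc0 toReal_nonneg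
    have hfin : ∀ᵐ x, f x ≠ ⊤ := by
      filter_upwards [ae_lt_top (hf.pow_const 2) hItop] with x hx h
      simp [h] at hx
    have hfg : ∀ᵐ x, ENNReal.ofReal (g x) = ENNReal.ofReal c * f x := by
      filter_upwards [hfin] with x hx
      rw [ENNReal.ofReal_mul hc0, ofReal_toReal hx]
    have hc2 : ENNReal.ofReal c ^ 2 = I⁻¹ := by
      rw [← ENNReal.ofReal_pow hc0, hc, Real.sq_sqrt (inv_nonneg.2 toReal_nonneg),
        ← toReal_inv, ofReal_toReal (inv_ne_top.2 hI0)]
    have hsq : ∫⁻ x, ENNReal.ofReal (g x) ^ 2 = 1 := by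
      rw [lintegral_congr_ae (hfg.mono fun x hx => by rw [hx, mul_pow, hc2]),
        lintegral_const_mul _ (hf.pow_const 2), ← hI, ENNReal.inv_mul_cancel hI0 hItop]
    have havg : ∀ᵐ x, avg μ (fun y => ENNReal.ofReal (g y)) x = ENNReal.ofReal c * avg μ f x := by
      have h1 : ∀ᵐ A ∂μ, ∀ᵐ x, ENNReal.ofReal (g (A x)) = ENNReal.ofReal c * f (A x) :=
        hμ.mono fun A hA => (measurePreserving_of_unitDet hA).quasiMeasurePreserving.ae hfg
      have h2 : ∀ᵐ x, ∀ᵐ A ∂μ, ENNReal.ofReal (g (A x)) = ENNReal.ofReal c * f (A x) :=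
        (Measure.ae_ae_comm (p := fun (A : E →L[ℝ] E) (x : E) =>
          ENNReal.ofReal (g (A x)) = ENNReal.ofReal c * f (A x)) (measurableSet_eq_fun
          ((hgm.comp measurable_eval).ennreal_ofReal)
          ((hf.comp measurable_eval).const_mul _))).1 h1
      filter_upwards [h2] with x hx
      rw [avg, lintegral_congr_ae hx, lintegral_const_mul' _ _ ofReal_ne_top, avg]
    refine ⟨g, hgm, by simpa only [ENNReal.ofReal_pow (hg0 _)] using hsq, ?_⟩
    have hsum := lintegral_defect_add μ hμ hgm hg0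
    rw [hsq, mul_one] at hsum
    have hpair : ENNReal.ofReal a ≤
        ∫⁻ x, ENNReal.ofReal (g x) * avg μ (fun y => ENNReal.ofReal (g y)) x := by
      rw [lintegral_congr_ae ((hfg.and havg).mono fun x hx => by
        rw [hx.1, hx.2, show ENNReal.ofReal c * f x * (ENNReal.ofReal c * avg μ f x) =
          ENNReal.ofReal c ^ 2 * (f x * avg μ f x) by ring]),
        lintegral_const_mul' _ _ (by finiteness), hc2]
      calc ENNReal.ofReal a = I⁻¹ * (ENNReal.ofReal a * I) := by
            rw [mul_left_comm, ENNReal.inv_mul_cancel hI0 hItop, mul_one]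
        _ ≤ _ := mul_le_mul' le_rfl hfs.le
    have h3 : ∫⁻ A, defect g A ∂μ + 2 * ENNReal.ofReal a ≤ 2 :=
      (add_le_add le_rfl (mul_le_mul' le_rfl hpair)).trans hsum.le
    rw [show (2 : ℝ≥0∞) = ENNReal.ofReal 2 by simp, ← ENNReal.ofReal_mul zero_le_two,
      ← ENNReal.le_sub_iff_add_le_right ofReal_ne_top (ENNReal.ofReal_le_ofReal (by
        have : (0 : ℝ) < 1 / ((k : ℝ) + 2) := by positivity
        linarith)),
      ← ENNReal.ofReal_sub _ (mul_nonneg zero_le_two (hs0 k).le)] at h3
    exact h3.trans (ENNReal.ofReal_le_ofReal (by linarith))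
  choose g hgm hg1 hgd using hg
  refine hno (exists_invariant_measure μ hμ g hgm hg1 ?_)
  refine tendsto_of_tendsto_of_tendsto_of_le_of_le tendsto_const_nhds ?_
    (fun k => zero_le) hgd
  rw [← ENNReal.ofReal_zero]
  refine ENNReal.tendsto_ofReal ?_
  have h : Tendsto (fun k : ℕ => 1 / ((k : ℝ) + 2)) atTop (𝓝 0) :=
    tendsto_const_nhds.div_atTop (tendsto_natCast_atTop_atTop.atTop_add tendsto_const_nhds)
  simpa using h.const_mul 2

end FA.FurstenbergLyapunov
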