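import Fermat.Agent.FurstenbergLyapunov.Decay
import Mathlib.MeasureTheory.OuterMeasure.BorelCantelli
import Mathlib.Probability.Independence.InfinitePi
import Mathlib.Probability.Independence.ZeroOne

/-!
# Furstenberg's theorem

The top Lyapunov exponent of a random product of operators of determinant `±1` is positive when
their law is strongly irreducible and generates an unbounded monoid.
-/

set_option autoImplicit false

noncomputable section

namespace FA.FurstenbergLyapunov

open MeasureTheory Filter Topology Module Set ProbabilityTheory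
open FA.Kingman (cocycleProd cocycleProd_add)

/-- The shift preserves a product of copies of one measure. -/
theorem measurePreserving_shift {α : Type*} [MeasurableSpace α] (μ : Measure α)
    [IsProbabilityMeasure μ] :
    MeasurePreserving shift (Measure.infinitePi fun _ : ℕ => μ)
      (Measure.infinitePi fun _ : ℕ => μ) := by
  refine ⟨measurable_shift, ?_⟩
  have h := congrArg Measure.snd (map_split_infinitePi μ)
  rw [Measure.snd_prod, Measure.snd, Measure.map_map measurable_snd
    ((measurable_pi_apply 0).prodMk measurable_shift)] at h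
  exact h

/-- The shift is ergodic. -/
theorem ergodic_shift {α : Type*} [mα : MeasurableSpace α] (μ : Measure α)
    [IsProbabilityMeasure μ] :
    Ergodic shift (Measure.infinitePi fun _ : ℕ => μ) := by
  have hT := measurePreserving_shift μ
  refine ⟨hT, ⟨fun A hA hinv => eventuallyConst_set.2 ?_⟩⟩
  have hindep : iIndep (fun i : ℕ => mα.comap fun x : ℕ → α => x i)
      (Measure.infinitePi fun _ : ℕ => μ) :=
    iIndepFun_infinitePi (X := fun _ => id) fun _ => measurable_id
  have htail : MeasurableSet[limsup (fun i : ℕ => mα.comap fun x : ℕ → α => x i) atTop] A := by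
    rw [limsup_eq_iInf_iSup_of_nat, MeasurableSpace.measurableSet_iInf]
    intro n
    have hiter : ∀ m, shift^[m] ⁻¹' A = A := fun m => by
      induction m with
      | zero => rfl
      | succ m ih => rw [Function.iterate_succ, Set.preimage_comp, ih, hinv]
    have hm : Measurable[⨆ i ≥ n, mα.comap fun x : ℕ → α => x i]
        (shift^[n] : (ℕ → α) → ℕ → α) := by
      refine (@measurable_pi_iff (ℕ → α) ℕ (fun _ => α)
        (⨆ i ≥ n, mα.comap fun x : ℕ → α => x i) _ _).2 fun i => ?_
      have he : ∀ (m : ℕ) (x : ℕ → α) (j : ℕ), shift^[m] x j = x (j + m) := by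
        intro m
        induction m with
        | zero => simp
        | succ m ih =>
          intro x j
          rw [Function.iterate_succ_apply, ih]
          exact congrArg x (by omega)
      simp only [he]
      exact Measurable.of_comap_le
        (le_iSup₂ (f := fun i (_ : i ≥ n) => mα.comap fun x : ℕ → α => x i) (i + n) (by omega))
    rw [← hiter n]
    exact hm hA
  rcases measure_zero_or_one_of_measurableSet_limsup_atTop
    (fun i => (measurable_pi_apply i).comap_le) hindep htail with h | h
  · exact Or.inr (measure_eq_zero_iff_ae_notMem.1 h)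
  · exact Or.inl ((mem_ae_iff_prob_eq_one hA).2 h)

variable {E : Type*} [NormedAddCommGroup E] [InnerProductSpace ℝ E] [FiniteDimensional ℝ E]

/-- No finite nonempty family of proper nonzero subspaces is kept by all the operators. -/
def StronglyIrreducible (S : Set (E →L[ℝ] E)) : Prop :=
  ¬ ∃ F : Finset (Submodule ℝ E), F.Nonempty ∧ (∀ W ∈ F, W ≠ ⊥ ∧ W ≠ ⊤) ∧
    ∀ A ∈ S, ∀ W ∈ F, W.map (A : E →ₗ[ℝ] E) ∈ F

/-- The products of the operators are unbounded. -/
def Unbounded (S : Set (E →L[ℝ] E)) : Prop := ∀ M : ℝ, ∃ A ∈ Submonoid.closure S, M < ‖A‖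

variable [MeasurableSpace E] [BorelSpace E] [Nontrivial E]

theorem no_invariant_measure {S : Set (E →L[ℝ] E)} (hun : Unbounded S)
    (hsi : StronglyIrreducible S) :
    ¬ ∃ ν : ProbabilityMeasure (Sph E), ∀ A ∈ S, A ∈ stab (ν : Measure (Sph E)) := by
  rintro ⟨ν, hν⟩
  have hle : Submonoid.closure S ≤ stab (ν : Measure (Sph E)) := Submonoid.closure_le.2 hν
  obtain ⟨F, hF, hFp, hFi⟩ := exists_invariant_family (ν : Measure (Sph E))
    fun M => (hun M).imp fun A h => ⟨hle h.1, h.2⟩
  exact hsi ⟨F, hF, hFp, fun A hA => hFi A (hν A hA)⟩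

variable (μ : Measure (E →L[ℝ] E)) [IsProbabilityMeasure μ]

/-- **Furstenberg's theorem**, without moments: random products grow exponentially. -/
theorem exists_growth (hμ : ∀ᵐ A ∂μ, A ∈ unitDet E) (hun : Unbounded μ.support)
    (hsi : StronglyIrreducible μ.support) :
    ∃ c C r : ℝ, 0 < c ∧ 0 < r ∧ r < 1 ∧
      (∀ k : ℕ, ∫⁻ x, ENNReal.ofReal (‖randProd k x‖ ^ finrank ℝ E)⁻¹
        ∂(Measure.infinitePi fun _ : ℕ => μ) ≤ ENNReal.ofReal (C * r ^ k)) ∧
      ∀ᵐ x ∂(Measure.infinitePi fun _ : ℕ => μ),
        ∀ᶠ n : ℕ in atTop, Real.exp (c * n) ≤ ‖randProd n x‖ := by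
  obtain ⟨C, r, hr0, hr1, hdec⟩ := exists_decay μ hμ (no_invariant_measure hun hsi)
  set d := finrank ℝ E with hd
  have hd0 : (0 : ℝ) < d := Nat.cast_pos.2 finrank_pos
  set c := -Real.log r / (2 * d) with hc
  have hc0 : 0 < c := div_pos (neg_pos.2 (Real.log_neg hr0 hr1)) (by positivity)
  refine ⟨c, C, r, hc0, hr0, hr1, hdec, ?_⟩
  set π := Measure.infinitePi fun _ : ℕ => μ
  set q := Real.exp (c * d) * r with hq
  have hq1 : q < 1 := by
    rw [hq, ← Real.exp_log hr0, ← Real.exp_add, Real.exp_lt_one_iff, hc]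
    field_simp
    linarith [Real.log_neg hr0 hr1]
  have hgood := ae_all_unitDet μ hμ
  set s : ℕ → Set (ℕ → E →L[ℝ] E) := fun n =>
    {x | (∀ i, x i ∈ unitDet E) ∧ ‖randProd n x‖ < Real.exp (c * n)} with hs
  have hbd : ∀ n, π (s n) ≤ ENNReal.ofReal (C * q ^ n) := fun n => by
    set ε := ENNReal.ofReal (Real.exp (c * n) ^ d)⁻¹ with hε
    have hm : AEMeasurable (fun x => ENNReal.ofReal (‖randProd n x‖ ^ d)⁻¹) π :=
      (((continuous_norm.measurable.comp (measurable_randProd n)).pow_const d).inv.ennreal_ofReal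
        ).aemeasurable
    have hsub : s n ⊆ {x | ε ≤ ENNReal.ofReal (‖randProd n x‖ ^ d)⁻¹} := fun x hx =>
      ENNReal.ofReal_le_ofReal (inv_anti₀
        (pow_pos (one_pos.trans_le (one_le_norm (randProd_mem_unitDet hx.1 n))) d)
        (pow_le_pow_left₀ (norm_nonneg _) hx.2.le d))
    have h1 := (mul_le_mul' le_rfl (measure_mono hsub)).trans
      ((mul_meas_ge_le_lintegral₀ hm ε).trans (hdec n))
    rw [mul_comm, ← ENNReal.le_div_iff_mul_le (Or.inl (ENNReal.ofReal_pos.2 (by positivity)).ne')
      (Or.inl ENNReal.ofReal_ne_top), ← ENNReal.ofReal_div_of_pos (by positivity)] at h1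
    refine h1.trans (ENNReal.ofReal_le_ofReal (le_of_eq ?_))
    rw [div_inv_eq_mul, hq, mul_pow, ← Real.exp_nat_mul, ← Real.exp_nat_mul]
    ring_nf
  have hsum : ∑' n, π (s n) ≠ ⊤ := by
    refine ne_top_of_le_ne_top ?_ (ENNReal.tsum_le_tsum hbd)
    refine ne_top_of_le_ne_top ?_ (ENNReal.tsum_le_tsum fun n => le_of_eq
      (ENNReal.ofReal_mul' (p := C) (q := q ^ n) (by positivity)))
    rw [ENNReal.tsum_mul_left]
    refine ENNReal.mul_ne_top ENNReal.ofReal_ne_top ?_
    rw [← ENNReal.ofReal_tsum_of_nonneg (fun n => by positivity)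
      (summable_geometric_of_lt_one (by positivity) hq1)]
    exact ENNReal.ofReal_ne_top
  filter_upwards [hgood, ae_eventually_notMem hsum] with x hx hev
  filter_upwards [hev] with n hn
  exact not_lt.1 fun h => hn ⟨hx, h⟩

/-- **Furstenberg's theorem**: the top Lyapunov exponent is positive. -/
theorem exists_exponent (hμ : ∀ᵐ A ∂μ, A ∈ unitDet E) (hun : Unbounded μ.support)
    (hsi : StronglyIrreducible μ.support) (hint : Integrable (fun A => Real.log ‖A‖) μ) :
    ∃ γ : ℝ, 0 < γ ∧
      (∀ᵐ x ∂(Measure.infinitePi fun _ : ℕ => μ),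
        Tendsto (fun n : ℕ => Real.log ‖randProd n x‖ / n) atTop (𝓝 γ)) ∧
      Tendsto (fun n : ℕ =>
        (∫ x, Real.log ‖randProd n x‖ ∂(Measure.infinitePi fun _ : ℕ => μ)) / n) atTop (𝓝 γ) := by
  classical
  obtain ⟨c, -, -, hc0, -, -, -, hgrowth⟩ := exists_growth μ hμ hun hsi
  set π := Measure.infinitePi fun _ : ℕ => μ
  set clip : (E →L[ℝ] E) → E →L[ℝ] E := fun A => if A ∈ unitDet E then A else 1 with hclip
  have hclipm : Measurable clip :=
    Measurable.ite isClosed_unitDet.measurableSet measurable_id measurable_const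
  have hclipu : ∀ A, clip A ∈ unitDet E := fun A => by
    simp only [hclip]; split
    · assumption
    · exact one_mem_unitDet
  set Q : ℕ → (ℕ → E →L[ℝ] E) → E →L[ℝ] E :=
    fun n x => randProd n (fun i => clip (x i)) with hQ
  have hQm : ∀ n, Measurable (Q n) := fun n => (measurable_randProd n).comp
    (measurable_pi_lambda _ fun i => hclipm.comp (measurable_pi_apply i))
  have hQ1 : ∀ n x, 1 ≤ ‖Q n x‖ := fun n x =>
    one_le_norm (randProd_mem_unitDet (fun i => hclipu _) n)
  set g : ℕ → (ℕ → E →L[ℝ] E) → ℝ := fun n x => Real.log ‖Q n x‖ with hg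
  have hg0 : ∀ n x, 0 ≤ g n x := fun n x => Real.log_nonneg (hQ1 n x)
  have hgm : ∀ n, Measurable (g n) := fun n =>
    Real.measurable_log.comp (continuous_norm.measurable.comp (hQm n))
  have hshift : ∀ (m : ℕ) (x : ℕ → E →L[ℝ] E) (i : ℕ), shift^[m] x i = x (i + m) := by
    intro m
    induction m with
    | zero => simp
    | succ m ih =>
      intro x j
      rw [Function.iterate_succ_apply, ih]
      exact congrArg x (by omega)
  have hsub : ∀ m n x, g (m + n) x ≤ g m x + g n (shift^[m] x) := by
    intro m n x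
    have he : Q (m + n) x = Q n (shift^[m] x) * Q m x := by
      rw [hQ]
      simp only [randProd]
      rw [cocycleProd_add]
      congr 2
      funext i
      simp only [hshift]
    rw [hg]
    simp only
    rw [he, ← Real.log_mul (one_pos.trans_le (hQ1 m x)).ne' (one_pos.trans_le (hQ1 n _)).ne',
      mul_comm ‖Q m x‖]
    exact Real.log_le_log (one_pos.trans_le (he ▸ hQ1 (m + n) x)) (norm_mul_le _ _)
  have hT := measurePreserving_shift μ
  have h1int : Integrable (g 1) π := by
    have h := (measurePreserving_eval_infinitePi (fun _ : ℕ => μ) 0).integrable_comp_of_integrable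
      hint
    refine h.congr ((ae_all_unitDet μ hμ).mono fun x hx => ?_)
    simp [hg, hQ, randProd, cocycleProd, hclip, hx 0]
  have hgi : ∀ n, Integrable (g n) π := by
    intro n
    induction n with
    | zero => simp [hg, hQ, randProd, cocycleProd]
    | succ n ih =>
      refine (ih.add ((hT.iterate n).integrable_comp_of_integrable h1int)).mono'
        (hgm _).aestronglyMeasurable (.of_forall fun x => ?_)
      rw [Real.norm_of_nonneg (hg0 _ _)]
      exact hsub n 1 x
  obtain ⟨γ, hlim, hmean, -⟩ := FA.Kingman.tendsto_subadditive_ergodic (ergodic_shift μ) hgm hgi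
    hsub (C := 0) fun n => by simpa using integral_nonneg (μ := π) (hg0 n)
  have hsame : ∀ᵐ x ∂π, ∀ n, g n x = Real.log ‖randProd n x‖ :=
    (ae_all_unitDet μ hμ).mono fun x hx n => by
      simp only [hg, hQ, hclip, if_pos (hx _)]
  refine ⟨γ, ?_, ?_, ?_⟩
  · obtain ⟨x, hx, hxs, hxg⟩ := (hlim.and (hsame.and hgrowth)).exists
    refine hc0.trans_le (ge_of_tendsto hx ?_)
    filter_upwards [hxg, eventually_gt_atTop 0] with n hn hn0
    rw [hxs n, le_div_iff₀ (Nat.cast_pos.2 hn0)]
    exact (Real.le_log_iff_exp_le (lt_of_lt_of_le (Real.exp_pos _) hn)).2 hn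
  · filter_upwards [hlim, hsame] with x hx hxs
    exact hx.congr fun n => by rw [hxs n]
  · exact hmean.congr fun n => by rw [integral_congr_ae (hsame.mono fun x hx => hx n)]

end FA.FurstenbergLyapunov
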