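import Fermat.Agent.FurstenbergLyapunov.Sphere
import Mathlib.Topology.Algebra.Monoid

/-!
# Bounded semigroups of operators of determinant `±1` generate bounded groups

So for Furstenberg's theorem it makes no difference whether the group or the monoid generated by a
set of such operators is asked to be unbounded.
-/

set_option autoImplicit false

noncomputable section

namespace FA.FurstenbergLyapunov

open Metric Filter Topology Module

variable {E : Type*} [NormedAddCommGroup E] [InnerProductSpace ℝ E] [FiniteDimensional ℝ E]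

/-- In a bounded monoid of operators of determinant `±1` the inverses lie in the closure. -/
theorem exists_left_inverse_mem {P : Submonoid (E →L[ℝ] E)} {M : ℝ}
    (hM : ∀ A ∈ P, ‖A‖ ≤ M) (hP : ∀ A ∈ P, A ∈ unitDet E) {g : E →L[ℝ] E}
    (hg : g ∈ P.topologicalClosure) : ∃ u ∈ P.topologicalClosure, u * g = 1 := by
  have hb : ∀ A ∈ P.topologicalClosure, ‖A‖ ≤ M := fun A hA =>
    closure_minimal (fun B hB => hM B hB)
      (isClosed_le continuous_norm continuous_const) hA
  have hu : ∀ A ∈ P.topologicalClosure, A ∈ unitDet E := fun A hA =>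
    closure_minimal (fun B hB => hP B hB) isClosed_unitDet hA
  have hc : IsCompact (P.topologicalClosure : Set (E →L[ℝ] E)) :=
    (isCompact_closedBall (0 : E →L[ℝ] E) M).of_isClosed_subset
      P.isClosed_topologicalClosure fun A hA => mem_closedBall_zero_iff.2 (hb A hA)
  obtain ⟨h, hh, s, hs, hlim⟩ := hc.tendsto_subseq (x := fun n => g ^ n) fun n => pow_mem hg n
  obtain ⟨u, humem, t, ht, hut⟩ :=
    hc.tendsto_subseq (x := fun k => g ^ (s (k + 1) - s k - 1)) fun k => pow_mem hg _
  refine ⟨u, humem, ?_⟩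
  have h1 : u * g * h = h := by
    refine tendsto_nhds_unique ((hut.mul_const g).mul (hlim.comp ht.tendsto_atTop)) ?_
    refine (hlim.comp ((tendsto_add_atTop_nat 1).comp ht.tendsto_atTop)).congr fun k => ?_
    show g ^ s (t k + 1) = g ^ (s (t k + 1) - s (t k) - 1) * g * g ^ s (t k)
    rw [← pow_succ, ← pow_add]
    congr 1
    have := hs (Nat.lt_add_one (t k))
    omega
  have hsurj : Function.Surjective (h : E →ₗ[ℝ] E) :=
    LinearMap.injective_iff_surjective.1 (injective_of_unitDet (hu h hh))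
  ext v
  obtain ⟨w, rfl⟩ := hsurj v
  exact congrArg (fun A : E →L[ℝ] E => A w) h1

/-- **If the group is unbounded then so is the monoid.** -/
theorem monoid_unbounded_of_group_unbounded {S : Set (E →L[ℝ] E)ˣ}
    (hS : ∀ A ∈ S, (A : E →L[ℝ] E) ∈ unitDet E)
    (h : ∀ M : ℝ, ∃ A ∈ Subgroup.closure S, M < ‖(A : E →L[ℝ] E)‖) :
    ∀ M : ℝ, ∃ A ∈ Submonoid.closure (Units.val '' S), M < ‖A‖ := by
  by_contra hcon
  push Not at hcon
  obtain ⟨M, hM⟩ := hcon
  set P := Submonoid.closure (Units.val '' S)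
  have hP : ∀ A ∈ P, A ∈ unitDet E := fun A hA => by
    refine Submonoid.closure_induction (motive := fun B _ => B ∈ unitDet E) ?_ one_mem_unitDet
      (fun _ _ _ _ hx hy => mul_mem_unitDet hx hy) hA
    rintro _ ⟨B, hB, rfl⟩
    exact hS B hB
  obtain ⟨A, hA, hlarge⟩ := h M
  have key : (A : E →L[ℝ] E) ∈ P.topologicalClosure ∧
      ((A⁻¹ : (E →L[ℝ] E)ˣ) : E →L[ℝ] E) ∈ P.topologicalClosure := by
    refine Subgroup.closure_induction (p := fun (B : (E →L[ℝ] E)ˣ) _ =>
      (B : E →L[ℝ] E) ∈ P.topologicalClosure ∧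
      ((B⁻¹ : (E →L[ℝ] E)ˣ) : E →L[ℝ] E) ∈ P.topologicalClosure) ?_ ?_ ?_ ?_ hA
    · intro B hB
      have hmem : (B : E →L[ℝ] E) ∈ P.topologicalClosure :=
        P.le_topologicalClosure (Submonoid.subset_closure ⟨B, hB, rfl⟩)
      obtain ⟨u, hu, hu1⟩ := exists_left_inverse_mem hM hP hmem
      refine ⟨hmem, ?_⟩
      rwa [show ((B⁻¹ : (E →L[ℝ] E)ˣ) : E →L[ℝ] E) = u from by
        rw [← one_mul ((B⁻¹ : (E →L[ℝ] E)ˣ) : E →L[ℝ] E), ← hu1, mul_assoc, Units.mul_inv,
          mul_one]]
    · simp [one_mem]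
    · intro B C _ _ hB hC
      rw [mul_inv_rev, Units.val_mul, Units.val_mul]
      exact ⟨mul_mem hB.1 hC.1, mul_mem hC.2 hB.2⟩
    · intro B _ hB
      rw [inv_inv]
      exact ⟨hB.2, hB.1⟩
  have hb : ‖(A : E →L[ℝ] E)‖ ≤ M :=
    closure_minimal (fun B hB => hM B hB) (isClosed_le continuous_norm continuous_const) key.1
  exact absurd hlarge (not_lt.2 hb)

end FA.FurstenbergLyapunov
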