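import Mathlib.Analysis.InnerProductSpace.Projection.FiniteDimensional
import Mathlib.Analysis.InnerProductSpace.EuclideanDist
import Mathlib.MeasureTheory.Measure.Lebesgue.EqHaar
import Mathlib.MeasureTheory.Measure.Haar.InnerProductSpace
import Mathlib.MeasureTheory.Integral.DominatedConvergence
import Mathlib.MeasureTheory.Constructions.BorelSpace.ContinuousLinearMap
import Mathlib.MeasureTheory.Measure.HasOuterApproxClosed
import Mathlib.Analysis.Normed.Algebra.Basic

/-!
# Invariant measures on the sphere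

Furstenberg's lemma: a probability measure on the unit sphere which is preserved by an unbounded
set of operators of determinant `±1` gives positive mass to a proper subspace.  The subspaces of
least dimension and greatest mass then form a finite family which all these operators keep.
-/

set_option autoImplicit false

noncomputable section

namespace FA.FurstenbergLyapunov

open MeasureTheory Metric Filter Topology Module Set
open scoped InnerProductSpace RealInnerProductSpace BoundedContinuousFunction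

variable {E : Type*} [NormedAddCommGroup E] [InnerProductSpace ℝ E] [FiniteDimensional ℝ E]
  [MeasurableSpace E] [BorelSpace E] [Nontrivial E]

/-- The unit sphere. -/
abbrev Sph (E : Type*) [NormedAddCommGroup E] : Type _ := sphere (0 : E) 1

/-- The operators of determinant `±1`. -/
def unitDet (E : Type*) [NormedAddCommGroup E] [InnerProductSpace ℝ E] : Set (E →L[ℝ] E) :=
  {A | |A.det| = 1}

omit [FiniteDimensional ℝ E] [MeasurableSpace E] [BorelSpace E] [Nontrivial E] in
theorem isClosed_unitDet : IsClosed (unitDet E) :=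
  isClosed_eq (continuous_abs.comp ContinuousLinearMap.continuous_det) continuous_const

omit [FiniteDimensional ℝ E] [MeasurableSpace E] [BorelSpace E] [Nontrivial E] in
theorem one_mem_unitDet : (1 : E →L[ℝ] E) ∈ unitDet E := by
  show |LinearMap.det ((1 : E →L[ℝ] E) : E →ₗ[ℝ] E)| = 1
  rw [ContinuousLinearMap.toLinearMap_one, map_one, abs_one]

omit [FiniteDimensional ℝ E] [MeasurableSpace E] [BorelSpace E] [Nontrivial E] in
theorem mul_mem_unitDet {A B : E →L[ℝ] E} (hA : A ∈ unitDet E) (hB : B ∈ unitDet E) :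
    A * B ∈ unitDet E := by
  show |LinearMap.det ((A : E →ₗ[ℝ] E) * (B : E →ₗ[ℝ] E))| = 1
  rw [map_mul, abs_mul, show |LinearMap.det (A : E →ₗ[ℝ] E)| = 1 from hA,
    show |LinearMap.det (B : E →ₗ[ℝ] E)| = 1 from hB, one_mul]

omit [MeasurableSpace E] [BorelSpace E] [Nontrivial E] in
theorem injective_of_unitDet {A : E →L[ℝ] E} (hA : A ∈ unitDet E) : Function.Injective A := by
  have hne : LinearMap.det (A : E →ₗ[ℝ] E) ≠ 0 := fun h => by
    have h1 : |LinearMap.det (A : E →ₗ[ℝ] E)| = 1 := hA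
    rw [h, abs_zero] at h1
    exact zero_ne_one h1
  exact LinearMap.ker_eq_bot.1 (by
    by_contra h
    exact hne (LinearMap.det_eq_zero_iff_ker_ne_bot.2 h))

omit [MeasurableSpace E] [BorelSpace E] [Nontrivial E] in
theorem apply_ne_zero {A : E →L[ℝ] E} (hA : A ∈ unitDet E) {v : E} (hv : v ≠ 0) : A v ≠ 0 :=
  fun h => hv (injective_of_unitDet hA (by rw [h, map_zero]))

omit [BorelSpace E] in
theorem one_le_norm {A : E →L[ℝ] E} (hA : A ∈ unitDet E) [BorelSpace E] : 1 ≤ ‖A‖ := by
  by_contra h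
  rw [not_le] at h
  have hsub : A '' closedBall 0 1 ⊆ closedBall 0 ‖A‖ := by
    rintro _ ⟨x, hx, rfl⟩
    rw [mem_closedBall_zero_iff] at hx ⊢
    exact (A.le_opNorm x).trans (mul_le_of_le_one_right (norm_nonneg _) hx)
  have h1 := measure_mono (μ := (volume : Measure E)) hsub
  rw [Measure.addHaar_image_continuousLinearMap, Measure.addHaar_closedBall' _ _ (norm_nonneg _),
    show |A.det| = 1 from hA, ENNReal.ofReal_one, one_mul] at h1
  have h2 : ENNReal.ofReal (‖A‖ ^ finrank ℝ E) < 1 :=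
    ENNReal.ofReal_lt_one.2 (pow_lt_one₀ (norm_nonneg _) h finrank_pos.ne')
  have hpos : 0 < volume (closedBall (0 : E) 1) := measure_closedBall_pos _ _ one_pos
  have hfin : volume (closedBall (0 : E) 1) ≠ ⊤ := measure_closedBall_lt_top.ne
  exact absurd h1 (not_le.2 (by
    calc _ < 1 * volume (closedBall (0 : E) 1) := ENNReal.mul_lt_mul_left hpos.ne' hfin h2
      _ = _ := one_mul _))

/-! ### Directions -/

/-- A point of the sphere. -/
def basePoint (E : Type*) [NormedAddCommGroup E] [InnerProductSpace ℝ E] [Nontrivial E] : Sph E :=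
  ⟨_, ((NormedSpace.sphere_nonempty (x := (0 : E))).2 zero_le_one).choose_spec⟩

open scoped Classical in
/-- The direction of a vector; at `0` the point `basePoint`. -/
def dir (v : E) : Sph E :=
  ⟨if v = 0 then (basePoint E : E) else ‖v‖⁻¹ • v, by
    split
    · exact (basePoint E).2
    · rw [mem_sphere_zero_iff_norm, norm_smul, norm_inv, norm_norm,
        inv_mul_cancel₀ (norm_ne_zero_iff.2 ‹_›)]⟩

omit [FiniteDimensional ℝ E] [MeasurableSpace E] [BorelSpace E] in
theorem coe_dir {v : E} (hv : v ≠ 0) : (dir v : E) = ‖v‖⁻¹ • v := if_neg hv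

omit [FiniteDimensional ℝ E] in
theorem measurable_dir : Measurable (dir : E → Sph E) := by
  classical
  refine Measurable.subtype_mk (Measurable.ite (p := fun v : E => v = 0)
    (measurableSet_singleton (0 : E)) measurable_const ?_)
  exact (continuous_norm.measurable.inv).smul measurable_id

omit [FiniteDimensional ℝ E] [MeasurableSpace E] [BorelSpace E] in
theorem continuousAt_dir {v : E} (hv : v ≠ 0) : ContinuousAt (dir : E → Sph E) v := by
  refine Topology.IsInducing.subtypeVal.continuousAt_iff.2 ?_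
  have h : (fun w : E => ‖w‖⁻¹ • w) =ᶠ[𝓝 v] fun w => (dir w : E) := by
    filter_upwards [isOpen_ne.mem_nhds hv] with w hw
    exact (coe_dir hw).symm
  exact ((continuous_norm.continuousAt.inv₀ (norm_ne_zero_iff.2 hv)).smul continuousAt_id).congr h

omit [FiniteDimensional ℝ E] [MeasurableSpace E] [BorelSpace E] in
theorem dir_smul {c : ℝ} (hc : 0 < c) {v : E} (hv : v ≠ 0) : dir (c • v) = dir v := by
  refine Subtype.ext ?_
  rw [coe_dir (smul_ne_zero hc.ne' hv), coe_dir hv, norm_smul, Real.norm_of_nonneg hc.le,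
    mul_inv, smul_smul, show c⁻¹ * ‖v‖⁻¹ * c = ‖v‖⁻¹ by field_simp]

omit [FiniteDimensional ℝ E] [MeasurableSpace E] [BorelSpace E] in
theorem dir_mem_iff {v : E} (hv : v ≠ 0) (W : Submodule ℝ E) : (dir v : E) ∈ W ↔ v ∈ W := by
  rw [coe_dir hv]
  exact ⟨fun h => by simpa [smul_smul, norm_ne_zero_iff.2 hv] using W.smul_mem ‖v‖ h,
    fun h => W.smul_mem _ h⟩

omit [InnerProductSpace ℝ E] [FiniteDimensional ℝ E] [MeasurableSpace E] [BorelSpace E]
  [Nontrivial E] in
theorem sph_ne_zero (v : Sph E) : (v : E) ≠ 0 :=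
  ne_zero_of_mem_unit_sphere v

/-- The action of an operator on directions. -/
def act (A : E →L[ℝ] E) (v : Sph E) : Sph E := dir (A v)

omit [FiniteDimensional ℝ E] in
theorem measurable_act (A : E →L[ℝ] E) : Measurable (act A) :=
  measurable_dir.comp (A.continuous.measurable.comp measurable_subtype_coe)

omit [MeasurableSpace E] [BorelSpace E] in
theorem continuous_act {A : E →L[ℝ] E} (hA : A ∈ unitDet E) : Continuous (act A) :=
  continuous_iff_continuousAt.2 fun v =>
    (continuousAt_dir (apply_ne_zero hA (sph_ne_zero v))).comp_of_eq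
      (A.continuous.comp continuous_subtype_val).continuousAt rfl

omit [MeasurableSpace E] [BorelSpace E] in
theorem act_mul {A B : E →L[ℝ] E} (hA : A ∈ unitDet E) (hB : B ∈ unitDet E) (v : Sph E) :
    act (A * B) v = act A (act B v) := by
  have h := apply_ne_zero hB (sph_ne_zero v)
  rw [act, act, act, coe_dir h, map_smul,
    dir_smul (inv_pos.2 (norm_pos_iff.2 h)) (apply_ne_zero hA h), mul_apply_eq_comp]

omit [FiniteDimensional ℝ E] [MeasurableSpace E] [BorelSpace E] in
theorem act_one (v : Sph E) : act (1 : E →L[ℝ] E) v = v := by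
  refine Subtype.ext ?_
  rw [act, one_apply_eq_self, coe_dir (sph_ne_zero v), norm_eq_of_mem_sphere v,
    inv_one, one_smul]

/-- The operators of determinant `±1` which preserve `ν`. -/
def stab (ν : Measure (Sph E)) : Submonoid (E →L[ℝ] E) where
  carrier := {A | A ∈ unitDet E ∧ ν.map (act A) = ν}
  one_mem' := ⟨one_mem_unitDet, by
    rw [show act (1 : E →L[ℝ] E) = id from funext act_one, Measure.map_id]⟩
  mul_mem' := fun {A B} hA hB => ⟨mul_mem_unitDet hA.1 hB.1, by
    rw [show act (A * B) = act A ∘ act B from funext (act_mul hA.1 hB.1),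
      ← Measure.map_map (measurable_act A) (measurable_act B), hB.2, hA.2]⟩

theorem mem_stab {ν : Measure (Sph E)} {A : E →L[ℝ] E} :
    A ∈ stab ν ↔ A ∈ unitDet E ∧ ν.map (act A) = ν := Iff.rfl

/-! ### Furstenberg's lemma -/

/-- The mass of a subspace. -/
def mass (ν : Measure (Sph E)) (W : Submodule ℝ E) : ENNReal := ν {v : Sph E | (v : E) ∈ W}

omit [Nontrivial E] in
theorem measurableSet_sphSet (W : Submodule ℝ E) :
    MeasurableSet {v : Sph E | (v : E) ∈ W} :=
  (W.closed_of_finiteDimensional.preimage continuous_subtype_val).measurableSet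

/-- **Furstenberg's lemma.** -/
theorem exists_subspace_pos (ν : Measure (Sph E)) [IsProbabilityMeasure ν] (A : ℕ → E →L[ℝ] E)
    (hA : ∀ n, A n ∈ stab ν) (hlim : Tendsto (fun n => ‖A n‖) atTop atTop) :
    ∃ W : Submodule ℝ E, W ≠ ⊤ ∧ mass ν W ≠ 0 := by
  have hpos : ∀ n, 0 < ‖A n‖ := fun n => one_pos.trans_le (one_le_norm (hA n).1)
  set H : ℕ → E →L[ℝ] E := fun n => ‖A n‖⁻¹ • A n with hH
  have hHn : ∀ n, ‖H n‖ = 1 := fun n => by
    rw [norm_smul, norm_inv, norm_norm, inv_mul_cancel₀ (hpos n).ne']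
  obtain ⟨h, hh, s, hs, hHs⟩ := (isCompact_sphere (0 : E →L[ℝ] E) 1).tendsto_subseq
    (x := H) fun n => mem_sphere_zero_iff_norm.2 (hHn n)
  rw [mem_sphere_zero_iff_norm] at hh
  have hd : 0 < finrank ℝ E := finrank_pos
  have hdet : LinearMap.det (h : E →ₗ[ℝ] E) = 0 := by
    refine tendsto_nhds_unique (f := fun n => (H (s n)).det) (l := atTop)
      ((ContinuousLinearMap.continuous_det.tendsto h).comp hHs) ?_
    refine squeeze_zero_norm' (a := fun n => (‖A (s n)‖⁻¹) ^ finrank ℝ E) ?_ ?_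
    · filter_upwards with n
      show ‖LinearMap.det ((‖A (s n)‖⁻¹ • A (s n) : E →L[ℝ] E) : E →ₗ[ℝ] E)‖ ≤ _
      rw [ContinuousLinearMap.toLinearMap_smul, LinearMap.det_smul, norm_mul, norm_pow, norm_inv,
        norm_norm, Real.norm_eq_abs,
        show |LinearMap.det (A (s n) : E →ₗ[ℝ] E)| = 1 from (hA (s n)).1, mul_one]
    · have := ((tendsto_inv_atTop_zero.comp (hlim.comp hs.tendsto_atTop)).pow (finrank ℝ E))
      rwa [zero_pow hd.ne'] at this
  set K : Submodule ℝ E := LinearMap.ker (h : E →ₗ[ℝ] E)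
  set R : Submodule ℝ E := LinearMap.range (h : E →ₗ[ℝ] E) with hR
  have hK : K ≠ ⊤ := fun hK => by
    have h0 : h = 0 := ContinuousLinearMap.coe_injective (LinearMap.ker_eq_top.1 hK)
    simp [h0] at hh
  have hRtop : R ≠ ⊤ := by
    refine ((LinearMap.range_lt_top_of_det_eq_zero hdet)).ne
  have hw : ∀ n, ∃ w : E, ‖w‖ = 1 ∧ ∀ v ∈ K, ⟪w, A n v⟫ = 0 := by
    intro n
    have hne : K.map (A n : E →ₗ[ℝ] E) ≠ ⊤ := fun ht => by
      have h1 : finrank ℝ (K.map (A n : E →ₗ[ℝ] E)) ≤ finrank ℝ K := Submodule.finrank_map_le _ _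
      rw [ht, finrank_top] at h1
      exact absurd h1 (not_le.2 (Submodule.finrank_lt hK))
    obtain ⟨u, hu, hu0⟩ := (Submodule.ne_bot_iff _).1
      (mt Submodule.orthogonal_eq_bot_iff.1 hne)
    refine ⟨‖u‖⁻¹ • u, ?_, fun v hv => ?_⟩
    · rw [norm_smul, norm_inv, norm_norm, inv_mul_cancel₀ (norm_ne_zero_iff.2 hu0)]
    · rw [real_inner_smul_left,
        show ⟪u, A n v⟫ = 0 from Submodule.inner_left_of_mem_orthogonal
          (Submodule.mem_map_of_mem (f := (A n : E →ₗ[ℝ] E)) hv) hu, mul_zero]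
  choose w hwn hwK using hw
  obtain ⟨w', hw', t, ht, hwt⟩ := (isCompact_sphere (0 : E) 1).tendsto_subseq
    (x := fun n => w (s n)) fun n => mem_sphere_zero_iff_norm.2 (hwn _)
  rw [mem_sphere_zero_iff_norm] at hw'
  set L : Submodule ℝ E := (ℝ ∙ w')ᗮ with hL
  have hLtop : L ≠ ⊤ := fun hL' => by
    have h1 : w' ∈ L := hL' ▸ Submodule.mem_top
    have h2 : ⟪w', w'⟫ = 0 := Submodule.mem_orthogonal_singleton_iff_inner_right.1 h1
    rw [inner_self_eq_zero] at h2
    simp [h2] at hw'
  set φ : Sph E → ℝ := fun v => min (infDist (v : E) R) |⟪w', (v : E)⟫| with hφ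
  have hφc : Continuous φ :=
    ((continuous_infDist_pt _).comp continuous_subtype_val).min
      ((continuous_const.inner continuous_subtype_val).abs)
  have hφ0 : ∀ v, 0 ≤ φ v := fun v => le_min infDist_nonneg (abs_nonneg _)
  have hφ1 : ∀ v, φ v ≤ 1 := fun v => by
    refine (min_le_left _ _).trans ((infDist_le_dist_of_mem R.zero_mem).trans ?_)
    rw [dist_zero_right, norm_eq_of_mem_sphere]
  have hptw : ∀ v : Sph E, Tendsto (fun k => φ (act (A (s (t k))) v)) atTop (𝓝 0) := by
    intro v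
    by_cases hv : (v : E) ∈ K
    · refine squeeze_zero (fun k => hφ0 _) (g := fun k => ‖w' - w (s (t k))‖) (fun k => ?_) ?_
      · refine (min_le_right _ _).trans ?_
        set u : Sph E := act (A (s (t k))) v
        have h1 : ⟪w (s (t k)), (u : E)⟫ = 0 := by
          show ⟪w (s (t k)), (dir (A (s (t k)) v) : E)⟫ = 0
          rw [coe_dir (apply_ne_zero (hA _).1 (sph_ne_zero v)), real_inner_smul_right,
            hwK _ _ hv, mul_zero]
        calc |⟪w', (u : E)⟫| = |⟪w' - w (s (t k)), (u : E)⟫| := by rw [inner_sub_left, h1, sub_zero]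
          _ ≤ ‖w' - w (s (t k))‖ * ‖(u : E)‖ := abs_real_inner_le_norm _ _
          _ = _ := by rw [norm_eq_of_mem_sphere, mul_one]
      · have := (hwt.const_sub w').norm
        simpa using this
    · have hhv : h (v : E) ≠ 0 := hv
      have h1 : Tendsto (fun k => H (s (t k)) (v : E)) atTop (𝓝 (h (v : E))) :=
        ((ContinuousLinearMap.apply ℝ E (v : E)).continuous.tendsto h).comp
          (hHs.comp ht.tendsto_atTop)
      have h2 := (hφc.tendsto (dir (h (v : E)))).comp ((continuousAt_dir hhv).tendsto.comp h1)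
      have h3 : φ (dir (h (v : E))) = 0 := by
        have hmem : (dir (h (v : E)) : E) ∈ R :=
          (dir_mem_iff hhv R).2 (LinearMap.mem_range_self (h : E →ₗ[ℝ] E) (v : E))
        exact le_antisymm ((min_le_left _ _).trans (infDist_zero_of_mem hmem).le) (hφ0 _)
      rw [h3] at h2
      refine h2.congr fun k => ?_
      show φ (dir ((‖A (s (t k))‖⁻¹ • A (s (t k))) (v : E))) = _
      rw [smul_apply,
        dir_smul (inv_pos.2 (hpos _)) (apply_ne_zero (hA _).1 (sph_ne_zero v))]
      rfl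
  have hint : ∀ k, ∫ v, φ (act (A (s (t k))) v) ∂ν = ∫ v, φ v ∂ν := fun k => by
    conv_rhs => rw [← (hA (s (t k))).2]
    rw [integral_map (measurable_act _).aemeasurable hφc.aestronglyMeasurable]
  have hlim0 := tendsto_integral_of_dominated_convergence (μ := ν) (fun _ => (1 : ℝ))
    (F := fun k v => φ (act (A (s (t k))) v)) (f := fun _ => (0 : ℝ))
    (fun k => (hφc.measurable.comp (measurable_act _)).aestronglyMeasurable)
    (integrable_const _)
    (fun k => .of_forall fun v => by rw [Real.norm_of_nonneg (hφ0 _)]; exact hφ1 _)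
    (.of_forall hptw)
  simp only [hint, integral_zero] at hlim0
  have hzero : ∫ v, φ v ∂ν = 0 := tendsto_nhds_unique tendsto_const_nhds hlim0
  have hae : φ =ᵐ[ν] 0 := (integral_eq_zero_iff_of_nonneg hφ0
    (Integrable.of_bound hφc.aestronglyMeasurable 1
      (.of_forall fun v => by rw [Real.norm_of_nonneg (hφ0 _)]; exact hφ1 _))).1 hzero
  by_contra hall
  push Not at hall
  have hnull : ∀ᵐ v : Sph E ∂ν, ¬ ((v : E) ∈ R) ∧ ¬ ((v : E) ∈ L) :=
    (measure_eq_zero_iff_ae_notMem.1 (hall R hRtop)).and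
      (measure_eq_zero_iff_ae_notMem.1 (hall L hLtop))
  obtain ⟨v, hv0, hvR, hvL⟩ := (hae.and hnull).exists
  rcases min_choice (infDist (v : E) R) |⟪w', (v : E)⟫| with hc | hc
  · refine hvR ((R.closed_of_finiteDimensional.mem_iff_infDist_zero ⟨0, R.zero_mem⟩).2 ?_)
    rw [← hc]; exact hv0
  · refine hvL (Submodule.mem_orthogonal_singleton_iff_inner_right.2 (abs_eq_zero.1 ?_))
    rw [← hc]; exact hv0

omit [FiniteDimensional ℝ E] [BorelSpace E] [Nontrivial E] in
theorem mass_mono (ν : Measure (Sph E)) {V W : Submodule ℝ E} (h : V ≤ W) :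
    mass ν V ≤ mass ν W := measure_mono fun _ hv => h hv

theorem mass_map (ν : Measure (Sph E)) {A : E →L[ℝ] E} (hA : A ∈ stab ν) (W : Submodule ℝ E) :
    mass ν (W.map (A : E →ₗ[ℝ] E)) = mass ν W := by
  conv_lhs => rw [mass, ← hA.2, Measure.map_apply (measurable_act A) (measurableSet_sphSet _)]
  refine congrArg ν (Set.ext fun v => ?_)
  show (dir (A v) : E) ∈ W.map (A : E →ₗ[ℝ] E) ↔ (v : E) ∈ W
  rw [dir_mem_iff (apply_ne_zero hA.1 (sph_ne_zero v))]
  exact ⟨fun ⟨u, hu, he⟩ => injective_of_unitDet hA.1 he ▸ hu, fun hv => ⟨v, hv, rfl⟩⟩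

/-- An invariant measure of an unbounded set gives a finite invariant family of subspaces. -/
theorem exists_invariant_family (ν : Measure (Sph E)) [IsProbabilityMeasure ν]
    (hun : ∀ M : ℝ, ∃ A ∈ stab ν, M < ‖A‖) :
    ∃ F : Finset (Submodule ℝ E), F.Nonempty ∧ (∀ W ∈ F, W ≠ ⊥ ∧ W ≠ ⊤) ∧
      ∀ A ∈ stab ν, ∀ W ∈ F, W.map (A : E →ₗ[ℝ] E) ∈ F := by
  classical
  choose A hA hAn using fun n : ℕ => hun n
  obtain ⟨W₀, hW₀, hW₀pos⟩ := exists_subspace_pos ν A hA
    (tendsto_atTop_mono (fun n => (hAn n).le) tendsto_natCast_atTop_atTop)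
  have hex : ∃ k, ∃ W : Submodule ℝ E, finrank ℝ W = k ∧ mass ν W ≠ 0 := ⟨_, W₀, rfl, hW₀pos⟩
  set k := Nat.find hex with hk
  obtain ⟨W₁, hW₁k, hW₁⟩ := Nat.find_spec hex
  have hdisj : ∀ V W : Submodule ℝ E, finrank ℝ V = k → finrank ℝ W = k → V ≠ W →
      mass ν (V ⊓ W) = 0 := by
    intro V W hV hW hne
    by_contra h
    have h1 : k ≤ finrank ℝ (V ⊓ W : Submodule ℝ E) := Nat.find_min' hex ⟨V ⊓ W, rfl, h⟩
    have h2 : V ⊓ W = V := Submodule.eq_of_le_of_finrank_le inf_le_left (by omega)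
    have h3 : V ⊓ W = W := Submodule.eq_of_le_of_finrank_le inf_le_right (by omega)
    exact hne (h2.symm.trans h3)
  set T : Set (Submodule ℝ E) := {W | finrank ℝ W = k ∧ mass ν W₁ ≤ mass ν W} with hT
  have hfin : T.Finite := by
    by_contra hinf
    obtain ⟨n, hn⟩ : ∃ n : ℕ, 1 < n * mass ν W₁ := ENNReal.exists_nat_mul_gt hW₁ ENNReal.one_ne_top
    obtain ⟨S, hST, hS⟩ := (Set.not_finite.1 hinf).exists_subset_card_eq n
    have h1 : ∑ W ∈ S, mass ν W = ν (⋃ W ∈ S, {v : Sph E | (v : E) ∈ W}) := by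
      refine (measure_biUnion_finset₀ (fun V hV W hW hne => ?_)
        fun W _ => (measurableSet_sphSet W).nullMeasurableSet).symm
      exact hdisj V W (hST hV).1 (hST hW).1 hne
    have h2 : (n : ENNReal) * mass ν W₁ ≤ 1 := by
      calc (n : ENNReal) * mass ν W₁ = ∑ W ∈ S, mass ν W₁ := by
            rw [Finset.sum_const, hS, nsmul_eq_mul]
        _ ≤ ∑ W ∈ S, mass ν W := Finset.sum_le_sum fun W hW => (hST hW).2
        _ ≤ 1 := h1 ▸ prob_le_one
    exact absurd hn (not_lt.2 h2)
  obtain ⟨W₂, hW₂, hmax⟩ := hfin.toFinset.exists_max_image (mass ν)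
    ⟨W₁, hfin.mem_toFinset.2 ⟨hW₁k, le_rfl⟩⟩
  refine ⟨hfin.toFinset.filter fun W => mass ν W = mass ν W₂,
    ⟨W₂, Finset.mem_filter.2 ⟨hW₂, rfl⟩⟩, fun W hW => ?_, fun B hB W hW => ?_⟩
  · obtain ⟨hWT, -⟩ := Finset.mem_filter.1 hW
    obtain ⟨hWk, hWm⟩ := hfin.mem_toFinset.1 hWT
    refine ⟨fun hbot => hW₁ (le_antisymm (hWm.trans ?_) bot_le), fun htop => ?_⟩
    · rw [hbot]
      refine le_of_eq (measure_mono_null (fun v hv => ?_) measure_empty)
      exact sph_ne_zero v ((Submodule.mem_bot ℝ).1 hv)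
    · have h1 : k ≤ finrank ℝ W₀ := Nat.find_min' hex ⟨W₀, rfl, hW₀pos⟩
      have h2 := Submodule.finrank_lt hW₀
      rw [htop, finrank_top] at hWk
      omega
  · obtain ⟨hWT, hWe⟩ := Finset.mem_filter.1 hW
    obtain ⟨hWk, hWm⟩ := hfin.mem_toFinset.1 hWT
    refine Finset.mem_filter.2 ⟨hfin.mem_toFinset.2 ⟨?_, ?_⟩, (mass_map ν hB W).trans hWe⟩
    · rw [← hWk]
      exact (Submodule.equivMapOfInjective _ (injective_of_unitDet hB.1) W).finrank_eq.symm
    · rw [mass_map ν hB W]
      exact hWm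

end FA.FurstenbergLyapunov
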